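import Mathlib.Tactic.Ring
import Mathlib.Tactic.Linarith
import Mathlib.Tactic.Positivity
import Mathlib.Tactic.GCongr
import Mathlib.Algebra.Order.Ring.Nat

/-!
# The parameters of the sharpened method

`side = P ^ (3 n + 3)`, the long side `R side`, `T j = 2 ^ (J + 1 - j) R P ^ (3 n + 6)` and
`S j = P ^ (j + 2)` with `J = (3 n + 3) (n + 1) + 4`: all costs are linear in `R`.
-/

set_option autoImplicit false

namespace FA.BakerLastHeight

/-- The number of steps. -/
def stepCount (n : ℕ) : ℕ := (3 * n + 3) * (n + 1) + 4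

/-- The exponent of the core theorem. -/
def coreKappa (n : ℕ) : ℕ := stepCount n + 3 * n + 10

/-- The short side of the box. -/
def side (n P : ℕ) : ℕ := P ^ (3 * n + 3)

/-- The unit of the orders. -/
def orderUnit (n P R : ℕ) : ℕ := R * P ^ (3 * n + 6)

/-- The orders of derivation. -/
def orderT (n P R j : ℕ) : ℕ := 2 ^ (stepCount n + 1 - j) * orderUnit n P R

/-- The ranges of the integers. -/
def rangeS (P j : ℕ) : ℕ := P ^ (j + 2)

/-- The bound for the frequencies. -/
def freqBound (n h P R : ℕ) : ℕ := (n + 1) * ((h + 1) * (R * side n P))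

/-- The size of the binomial weights. -/
def binomLog (n m P R : ℕ) : ℕ := n * (m + 4) * orderT n P R 0

/-- The logarithm of the number of unknowns. -/
def unknownLog (n P R : ℕ) : ℕ := n * (R * side n P) + side n P

/-- The logarithm of the terms. -/
def termU (n h m P R : ℕ) : ℕ :=
  2 * unknownLog n P R + 2 * binomLog n m P R + 2 * (freqBound n h P R * rangeS P 0) + 2

/-- The cost of clearing denominators at `z` with `k` steps in degree `d'`. -/
def liouville (n h m P R d' k : ℕ) : ℕ :=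
  freqBound n h P R * k + d' * (termU n h m P R + 2 * (freqBound n h P R * k))

/-- The factor of the interpolation. -/
def interpLog (n P R : ℕ) : ℕ :=
  rangeS P (stepCount n) + (4 + rangeS P (stepCount n)) * orderT n P R 0 +
    (5 + (stepCount n + 2) * P) * ((rangeS P (stepCount n) + 1) * orderT n P R 0)

/-- The logarithm of all that multiplies the form. -/
def coreLoss (n h m P R : ℕ) : ℕ :=
  termU n h m P R + 2 * (freqBound n h P R * rangeS P (stepCount n)) + 1 +
    (rangeS P (stepCount n) + side n P) + 2 * freqBound n h P R + interpLog n P R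

/-- The exponent of the base. -/
def baseExp (n d : ℕ) : ℕ := (stepCount n + 2) * (n + 2) + 2 * n + 16 + d

variable {n d h m P R : ℕ}

theorem side_mul (n P : ℕ) : side n P * P ^ 3 = P ^ (3 * n + 6) := by
  rw [side, ← pow_add]

theorem freqBound_mul (n h P R : ℕ) :
    freqBound n h P R * P ^ 3 = (n + 1) * (h + 1) * orderUnit n P R := by
  rw [freqBound, orderUnit, ← side_mul]
  ring

theorem orderUnit_le_orderT (n P R j : ℕ) : orderUnit n P R ≤ orderT n P R j :=
  Nat.le_mul_of_pos_left _ (Nat.two_pow_pos _)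

theorem orderT_succ {j : ℕ} (hj : j ≤ stepCount n) :
    2 * orderT n P R (j + 1) = orderT n P R j := by
  rw [orderT, orderT, ← mul_assoc, ← pow_succ', show stepCount n + 1 - (j + 1) + 1 =
    stepCount n + 1 - j by omega]

theorem orderT_anti {i j : ℕ} (hij : i ≤ j) : orderT n P R j ≤ orderT n P R i :=
  Nat.mul_le_mul_right _ (Nat.pow_le_pow_right two_pos (by omega))

/-- What the base dominates. -/
theorem base_le (hd : 1 ≤ d) (hP : 2 ^ baseExp n d * (h + m + 1) ≤ P) :
    1 ≤ P ∧ 8 * d * 2 ^ ((stepCount n + 1) * n) ≤ P ∧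
      d * 2 ^ (n + 4) * ((n + 1) * (18 * 2 ^ (stepCount n + 1)) * (h + m + 1)) ≤ P ∧
      (stepCount n + 8) * 2 ^ (stepCount n + 6) ≤ P := by
  set J := stepCount n with hJ
  have hX : 1 ≤ h + m + 1 := by omega
  have hd2 : d ≤ 2 ^ d := Nat.lt_two_pow_self.le
  have hbase : ∀ e, e ≤ baseExp n d → 2 ^ e * (h + m + 1) ≤ P := fun e he =>
    le_trans (Nat.mul_le_mul_right _ (Nat.pow_le_pow_right two_pos he)) hP
  have hbase1 : ∀ e, e ≤ baseExp n d → 2 ^ e ≤ P := fun e he =>
    le_trans (Nat.le_mul_of_pos_right _ hX) (hbase e he)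
  have e1 : (J + 2) * (n + 2) = (J + 1) * n + n + 2 * J + 4 := by ring
  refine ⟨le_trans Nat.one_le_two_pow (hbase1 0 (Nat.zero_le _)), ?_, ?_, ?_⟩
  · refine le_trans ?_ (hbase1 (3 + d + (J + 1) * n) (by rw [baseExp, ← hJ, e1]; omega))
    rw [pow_add, pow_add]
    exact Nat.mul_le_mul_right _ (Nat.mul_le_mul_left _ hd2)
  · refine le_trans ?_ (hbase (d + (n + 4) + (n + (5 + (J + 1)))) (by
      rw [baseExp, ← hJ, e1]; omega))
    calc d * 2 ^ (n + 4) * ((n + 1) * (18 * 2 ^ (J + 1)) * (h + m + 1))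
        ≤ 2 ^ d * 2 ^ (n + 4) * (2 ^ n * (2 ^ 5 * 2 ^ (J + 1)) * (h + m + 1)) := by
          gcongr
          · exact Nat.lt_two_pow_self
          · norm_num
      _ = _ := by simp only [pow_add]; ring
  · refine le_trans ?_ (hbase1 (J + 4 + (J + 6)) (by rw [baseExp, ← hJ, e1]; omega))
    rw [pow_add 2 (J + 4)]
    refine Nat.mul_le_mul_right _ ?_
    have := Nat.lt_two_pow_self (n := J)
    rw [pow_add]
    omega

theorem unknowns_le (hd : 1 ≤ d) (hP : 2 ^ baseExp n d * (h + m + 1) ≤ P) :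
    4 * (2 * d * (orderT n P R 0 ^ n * rangeS P 0)) ≤ (R * side n P) ^ n * side n P := by
  obtain ⟨hP1, h8, -, -⟩ := base_le hd hP
  rw [orderT, orderUnit, rangeS, side, Nat.sub_zero, mul_pow, ← pow_mul, mul_pow R, mul_pow R,
    ← pow_mul P, ← pow_mul P, zero_add]
  calc 4 * (2 * d * (2 ^ ((stepCount n + 1) * n) * (R ^ n * P ^ ((3 * n + 6) * n)) * P ^ 2))
      = (8 * d * 2 ^ ((stepCount n + 1) * n)) * P ^ ((3 * n + 6) * n + 2) * R ^ n := by ring
    _ ≤ P * P ^ ((3 * n + 6) * n + 2) * R ^ n := by gcongr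
    _ = R ^ n * P ^ ((3 * n + 3) * n) * P ^ (3 * n + 3) := by ring

theorem unknowns_pow_le : (R * side n P) ^ n * side n P ≤ 2 ^ unknownLog n P R := by
  rw [unknownLog, pow_add, mul_comm n (R * side n P), pow_mul]
  exact Nat.mul_le_mul (Nat.pow_le_pow_left Nat.lt_two_pow_self.le n) Nat.lt_two_pow_self.le

theorem side_le_orderUnit (hR : 1 ≤ R) (hP : 1 ≤ P) : R * side n P ≤ orderUnit n P R ∧
    side n P ≤ orderUnit n P R := by
  have h : side n P ≤ P ^ (3 * n + 6) := Nat.pow_le_pow_right hP (by omega)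
  exact ⟨Nat.mul_le_mul_left R h, h.trans (Nat.le_mul_of_pos_left _ hR)⟩

/-- The size of the terms is linear in the unit of the orders. -/
theorem termU_le (hR : 1 ≤ R) (hP : 1 ≤ P) :
    termU n h m P R ≤ (n + 1) * (18 * 2 ^ (stepCount n + 1)) * (h + m + 1) * orderUnit n P R := by
  obtain ⟨hL, hM⟩ := side_le_orderUnit (n := n) hR hP
  set Z := orderUnit n P R
  set a := 2 ^ (stepCount n + 1)
  set X := h + m + 1
  have ha : 1 ≤ a := Nat.one_le_two_pow
  have hZ : 1 ≤ Z := le_trans (Nat.mul_pos hR (pow_pos hP _)) le_rfl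
  have t1 : unknownLog n P R ≤ (n + 1) * Z := by
    rw [unknownLog, add_mul, one_mul]
    exact Nat.add_le_add (Nat.mul_le_mul_left n hL) hM
  have t2 : binomLog n m P R ≤ (n + 1) * (4 * X) * (a * Z) := by
    rw [binomLog, orderT, Nat.sub_zero]
    exact Nat.mul_le_mul_right _ (Nat.mul_le_mul (Nat.le_succ n) (by omega))
  have t3 : freqBound n h P R * rangeS P 0 ≤ (n + 1) * X * Z := by
    calc freqBound n h P R * rangeS P 0 ≤ freqBound n h P R * P ^ 3 :=
          Nat.mul_le_mul_left _ (Nat.pow_le_pow_right hP (by norm_num))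
      _ = (n + 1) * (h + 1) * Z := freqBound_mul n h P R
      _ ≤ _ := Nat.mul_le_mul_right _ (Nat.mul_le_mul_left _ (by omega))
  have t4 : (n + 1) * Z ≤ (n + 1) * X * (a * Z) :=
    Nat.mul_le_mul (Nat.le_mul_of_pos_right _ (by omega)) (Nat.le_mul_of_pos_left _ ha)
  have t5 : (n + 1) * X * Z ≤ (n + 1) * X * (a * Z) :=
    Nat.mul_le_mul_left _ (Nat.le_mul_of_pos_left _ ha)
  have t6 : 1 ≤ (n + 1) * Z := Nat.mul_pos (Nat.succ_pos n) hZ
  have e1 : (n + 1) * (4 * X) * (a * Z) = 4 * ((n + 1) * X * (a * Z)) := by ring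
  have e2 : (n + 1) * (18 * a) * X * Z = 18 * ((n + 1) * X * (a * Z)) := by ring
  rw [termU, e2]
  omega

/-- Frequencies times one step are small. -/
theorem freqBound_le (hd : 1 ≤ d) (hP : 2 ^ baseExp n d * (h + m + 1) ≤ P) :
    35 * d * (freqBound n h P R * P) ≤ orderUnit n P R := by
  obtain ⟨hP1, -, hA, -⟩ := base_le hd hP
  refine Nat.le_of_mul_le_mul_right ?_ (pow_pos hP1 2)
  calc 35 * d * (freqBound n h P R * P) * P ^ 2 = 35 * d * (freqBound n h P R * P ^ 3) := by ring
    _ = (35 * d * ((n + 1) * (h + 1))) * orderUnit n P R := by rw [freqBound_mul]; ring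
    _ ≤ P * orderUnit n P R := by
        refine Nat.mul_le_mul_right _ (le_trans ?_ hA)
        calc 35 * d * ((n + 1) * (h + 1))
            ≤ 36 * d * ((n + 1) * (h + m + 1)) :=
              Nat.mul_le_mul (Nat.mul_le_mul_right d (by norm_num))
                (Nat.mul_le_mul_left _ (by omega))
          _ = d * (2 * 1) * ((n + 1) * (18 * 1) * (h + m + 1)) := by ring
          _ ≤ _ := by
              gcongr
              · exact le_trans (by norm_num)
                  (Nat.pow_le_pow_right two_pos (show 1 ≤ n + 4 by omega))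
              · exact Nat.one_le_two_pow
    _ ≤ P ^ 2 * orderUnit n P R := Nat.mul_le_mul_right _ (Nat.le_self_pow two_ne_zero P)
    _ = orderUnit n P R * P ^ 2 := mul_comm _ _

/-- **The gain of a step.** -/
theorem step_gain (hd : 1 ≤ d) (hR : 1 ≤ R) (hP : 2 ^ baseExp n d * (h + m + 1) ≤ P) (j : ℕ) :
    termU n h m P R + 2 * (freqBound n h P R * (16 * rangeS P (j + 1))) +
      liouville n h m P R d (rangeS P (j + 1)) + 2 ≤
        2 * (rangeS P j * orderT n P R (j + 1)) := by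
  obtain ⟨hP1, -, hA, -⟩ := base_le hd hP
  set Z := orderUnit n P R
  set U := termU n h m P R
  set Ω := freqBound n h P R
  set A := (n + 1) * (18 * 2 ^ (stepCount n + 1)) * (h + m + 1)
  have hZ : 1 ≤ Z := Nat.mul_pos hR (pow_pos hP1 _)
  have hS : P ≤ rangeS P j := Nat.le_self_pow (by omega) P
  have hSρ : rangeS P (j + 1) = P * rangeS P j := by rw [rangeS, rangeS, ← pow_succ']
  have hU : U ≤ A * Z := termU_le hR hP1
  have h1 : 4 * d * U ≤ rangeS P j * Z := by
    calc 4 * d * U ≤ d * 2 ^ (n + 4) * (A * Z) := by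
          rw [mul_comm 4 d]
          exact Nat.mul_le_mul (Nat.mul_le_mul_left _ (le_trans (by norm_num)
            (Nat.pow_le_pow_right two_pos (show 2 ≤ n + 4 by omega)))) hU
      _ = d * 2 ^ (n + 4) * A * Z := by ring
      _ ≤ P * Z := Nat.mul_le_mul_right _ hA
      _ ≤ _ := Nat.mul_le_mul_right _ hS
  have h2 : 35 * d * (Ω * (P * rangeS P j)) ≤ rangeS P j * Z := by
    calc 35 * d * (Ω * (P * rangeS P j)) = rangeS P j * (35 * d * (Ω * P)) := by ring
      _ ≤ _ := Nat.mul_le_mul_left _ (freqBound_le hd hP)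
  have h3 : rangeS P j * Z ≤ rangeS P j * orderT n P R (j + 1) :=
    Nat.mul_le_mul_left _ (orderUnit_le_orderT _ _ _ _)
  have h4 : U ≤ d * U := Nat.le_mul_of_pos_left _ hd
  have h5 : Ω * (P * rangeS P j) ≤ d * (Ω * (P * rangeS P j)) := Nat.le_mul_of_pos_left _ hd
  have hU2 : 2 ≤ U := Nat.le_add_left 2 _
  rw [hSρ]
  have e : U + 2 * (Ω * (16 * (P * rangeS P j))) +
      liouville n h m P R d (P * rangeS P j) + 2 = U + 33 * (Ω * (P * rangeS P j)) + d * U +
        2 * (d * (Ω * (P * rangeS P j))) + 2 := by rw [liouville]; ring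
  rw [mul_assoc 4] at h1
  rw [mul_assoc 35] at h2
  rw [e]
  omega

/-- **The gain of the last step.** -/
theorem last_gain (hd : 1 ≤ d) (hR : 1 ≤ R) (hP : 2 ^ baseExp n d * (h + m + 1) ≤ P) {d' q : ℕ}
    (hq : q ≤ 2 * side n P) (hd' : d' ≤ d * q ^ (n + 1)) :
    termU n h m P R + 2 * (freqBound n h P R * (16 * rangeS P (stepCount n))) +
      liouville n h m P R d' 1 + 2 ≤
        2 * (rangeS P (stepCount n) * orderUnit n P R) := by
  obtain ⟨hP1, -, hA, -⟩ := base_le hd hP
  set Z := orderUnit n P R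
  set U := termU n h m P R
  set Ω := freqBound n h P R
  set σ := rangeS P (stepCount n)
  set A := (n + 1) * (18 * 2 ^ (stepCount n + 1)) * (h + m + 1)
  have hU : U ≤ A * Z := termU_le hR hP1
  have h2 : 32 * (Ω * σ) ≤ σ * Z := by
    refine le_trans ?_ (Nat.mul_le_mul_left σ (freqBound_le hd hP))
    calc 32 * (Ω * σ) = σ * (32 * (Ω * 1)) := by ring
      _ ≤ _ := Nat.mul_le_mul_left _
        (Nat.mul_le_mul (by omega) (Nat.mul_le_mul_left _ hP1))
  have hΩU : Ω * 2 ≤ U := by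
    change Ω * 2 ≤ 2 * unknownLog n P R + 2 * binomLog n m P R + 2 * (Ω * rangeS P 0) + 2
    have : Ω * 1 ≤ Ω * rangeS P 0 := Nat.mul_le_mul_left _ (Nat.one_le_pow _ _ hP1)
    omega
  have hU2 : 2 ≤ U := Nat.le_add_left 2 _
  have hdd : U * 1 ≤ U * (d * (2 * side n P) ^ (n + 1)) := Nat.mul_le_mul_left _
    (Nat.mul_pos hd (pow_pos (Nat.mul_pos two_pos (pow_pos hP1 _)) _))
  have h1 : 5 * (U * (d * (2 * side n P) ^ (n + 1))) ≤ σ * Z := by
    calc 5 * (U * (d * (2 * side n P) ^ (n + 1)))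
        ≤ 2 ^ 3 * (A * Z * (d * (2 * side n P) ^ (n + 1))) := by gcongr; norm_num
      _ = d * 2 ^ (n + 4) * A * (side n P ^ (n + 1) * Z) := by ring
      _ ≤ P * (side n P ^ (n + 1) * Z) := Nat.mul_le_mul_right _ hA
      _ = P ^ ((3 * n + 3) * (n + 1) + 1) * Z := by rw [side, ← pow_mul]; ring
      _ ≤ _ := Nat.mul_le_mul_right _ (Nat.pow_le_pow_right hP1 (by rw [stepCount]; omega))
  have h3 : liouville n h m P R d' 1 ≤ U + 2 * (U * (d * (2 * side n P) ^ (n + 1))) := by
    have e := hd'.trans (Nat.mul_le_mul_left d (Nat.pow_le_pow_left hq (n + 1)))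
    calc liouville n h m P R d' 1 = Ω + d' * (U + 2 * Ω) := by rw [liouville, mul_one]
      _ ≤ U + d * (2 * side n P) ^ (n + 1) * (2 * U) :=
          Nat.add_le_add (by omega) (Nat.mul_le_mul e (by omega))
      _ = _ := by ring
  rw [mul_one] at hdd
  have e : 2 * (Ω * (16 * σ)) = 32 * (Ω * σ) := by ring
  omega

/-- **The loss.** -/
theorem coreLoss_le (hd : 1 ≤ d) (hR : 1 ≤ R) (hP : 2 ^ baseExp n d * (h + m + 1) ≤ P) {E : ℕ}
    (hE : E ≤ 2 * (rangeS P (stepCount n) * orderT n P R 0)) :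
    coreLoss n h m P R + 1 + E + 2 ≤ R * P ^ coreKappa n := by
  obtain ⟨hP1, -, hA, hJP⟩ := base_le hd hP
  obtain ⟨-, hM⟩ := side_le_orderUnit (n := n) hR hP1
  set J := stepCount n with hJ
  set Z := orderUnit n P R
  set U := termU n h m P R
  set Ω := freqBound n h P R
  set σ := rangeS P J with hσ
  set a := 2 ^ (J + 1)
  set X := σ * Z
  have hσ1 : 1 ≤ σ := Nat.one_le_pow _ _ hP1
  have hZ1 : 1 ≤ Z := Nat.mul_pos hR (pow_pos hP1 _)
  have hX : 1 ≤ X := Nat.mul_pos hσ1 hZ1
  have ha : 1 ≤ a := Nat.one_le_two_pow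
  have hT : orderT n P R 0 = a * Z := by rw [orderT, Nat.sub_zero]
  have hU : U ≤ P * X := by
    refine (termU_le hR hP1).trans ((Nat.mul_le_mul_right _ (le_trans ?_ hA)).trans
      (Nat.mul_le_mul_left P (Nat.le_mul_of_pos_left Z hσ1)))
    exact Nat.le_mul_of_pos_left _ (Nat.mul_pos hd (Nat.two_pow_pos _))
  have hΩ : 2 * (Ω * σ) ≤ X := by
    refine le_trans ?_ (Nat.mul_le_mul_left σ (freqBound_le hd hP))
    calc 2 * (Ω * σ) = σ * (2 * (Ω * 1)) := by ring
      _ ≤ _ := Nat.mul_le_mul_left _ (Nat.mul_le_mul (by omega) (Nat.mul_le_mul_left _ hP1))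
  have hΩ2 : 2 * Ω ≤ X := le_trans (Nat.mul_le_mul_left 2 (Nat.le_mul_of_pos_right Ω hσ1)) hΩ
  have hσX : σ ≤ X := Nat.le_mul_of_pos_right _ hZ1
  have hMX : side n P ≤ X := hM.trans (Nat.le_mul_of_pos_left _ hσ1)
  have hI : interpLog n P R ≤ (P * (J + 7) * (2 * a) + 6 * a) * X := by
    rw [interpLog, ← hJ, ← hσ, hT]
    calc σ + (4 + σ) * (a * Z) + (5 + (J + 2) * P) * ((σ + 1) * (a * Z))
        ≤ σ * (a * Z) + 5 * σ * (a * Z) + P * (J + 7) * (2 * σ * (a * Z)) := by
          refine Nat.add_le_add (Nat.add_le_add (Nat.le_mul_of_pos_right _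
            (Nat.mul_pos ha hZ1)) (Nat.mul_le_mul_right _ (by omega))) (Nat.mul_le_mul ?_
              (Nat.mul_le_mul_right _ (by omega)))
          have : 5 ≤ 5 * P := Nat.le_mul_of_pos_right 5 hP1
          have : P * (J + 7) = (J + 2) * P + 5 * P := by ring
          omega
      _ = (P * (J + 7) * (2 * a) + 6 * a) * X := by ring
  have hE' : E ≤ 2 * a * X := hE.trans_eq (by rw [hT]; ring)
  have hfin : R * P ^ coreKappa n = P * P * X := by
    simp only [X, hσ, Z, orderUnit, rangeS, coreKappa, ← hJ]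
    ring
  rw [coreLoss, hfin, ← hσ]
  calc U + 2 * (Ω * σ) + 1 + (σ + side n P) + 2 * Ω + interpLog n P R + 1 + E + 2
      ≤ P * X + X + X + (X + X) + X + (P * (J + 7) * (2 * a) + 6 * a) * X + X + 2 * a * X +
          2 * X := by omega
    _ = (P + 8 + P * (J + 7) * (2 * a) + 8 * a) * X := by ring
    _ ≤ P * ((J + 8) * (a * 2 ^ 5)) * X := by
        refine Nat.mul_le_mul_right _ ?_
        nlinarith [Nat.mul_le_mul hP1 ha, Nat.le_mul_of_pos_right P ha]
    _ ≤ P * P * X := by
        refine Nat.mul_le_mul_right _ (Nat.mul_le_mul_left _ (le_trans (le_of_eq ?_) hJP))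
        simp only [a, ← pow_add]

end FA.BakerLastHeight
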