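import Mathlib.FieldTheory.KummerPolynomial
import Mathlib.FieldTheory.IntermediateField.Adjoin.Basic
import Mathlib.RingTheory.RootsOfUnity.PrimitiveRoots
import Mathlib.RingTheory.Norm.Basic
import Mathlib.RingTheory.Polynomial.Cyclotomic.Roots

/-!
# Radicals in fields generated by radicals

For a prime `q` a number with `q`-th power in the base lies in the field of a primitive `q`-th root
of unity and some `q`-th radicals only as a product of powers of these times a base element.
-/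

set_option autoImplicit false
set_option linter.unusedSectionVars false

noncomputable section

namespace FA.BakerLastHeight

open Polynomial IntermediateField

variable {F E : Type*} [Field F] [Field E] [Algebra F E] {q : ℕ} {ζ β z : E}

/-- The radical has the expected minimal polynomial. -/
theorem minpoly_radical (hq : q.Prime) (hζ : IsPrimitiveRoot ζ q) (hζF : ζ ∈ (algebraMap F E).range)
    {a : F} (ha : β ^ q = algebraMap F E a) (hβ : β ∉ (algebraMap F E).range) :
    minpoly F β = X ^ q - C a := by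
  refine (minpoly.eq_of_irreducible_of_monic (X_pow_sub_C_irreducible_of_prime hq fun b hb => ?_)
    (by simp [ha]) (monic_X_pow_sub_C a hq.ne_zero)).symm
  refine hβ ?_
  rcases eq_or_ne b 0 with rfl | hb0
  · rw [zero_pow hq.ne_zero] at hb
    rw [← hb, map_zero] at ha
    rw [pow_eq_zero_iff hq.ne_zero |>.1 ha]
    exact zero_mem _
  · have : NeZero q := ⟨hq.ne_zero⟩
    have hbE : algebraMap F E b ≠ 0 := (_root_.map_ne_zero _).2 hb0
    obtain ⟨i, -, hi⟩ := hζ.eq_pow_of_pow_eq_one (show (β / algebraMap F E b) ^ q = 1 by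
      rw [div_pow, ha, ← map_pow, hb, div_self ((_root_.map_ne_zero _).2 (by
        rw [← hb]; exact pow_ne_zero _ hb0))])
    rw [← mul_div_cancel₀ β hbE, ← hi]
    exact mul_mem ⟨b, rfl⟩ (pow_mem hζF i)

/-- **One radical.** -/
theorem radical_step (hq : q.Prime) (hζ : IsPrimitiveRoot ζ q) (hζF : ζ ∈ (algebraMap F E).range)
    (hβ : β ^ q ∈ (algebraMap F E).range) (hz : z ∈ F⟮β⟯)
    (hzq : z ^ q ∈ (algebraMap F E).range) :
    ∃ i < q, z * β ^ i ∈ (algebraMap F E).range := by
  classical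
  obtain ⟨a, ha⟩ := hβ
  obtain ⟨c, hc⟩ := hzq
  by_cases hβF : β ∈ (algebraMap F E).range
  · refine ⟨0, hq.pos, ?_⟩
    rw [pow_zero, mul_one]
    exact mem_bot.1 ((adjoin_simple_le_iff (K := (⊥ : IntermediateField F E))).2
      (mem_bot.2 hβF) hz)
  obtain ⟨ζ₀, hζ₀⟩ := hζF
  have hmin := minpoly_radical hq hζ ⟨ζ₀, hζ₀⟩ ha.symm hβF
  have hint : IsIntegral F β := ⟨X ^ q - C a, monic_X_pow_sub_C a hq.ne_zero, by simp [ha]⟩
  have hz' : z ∈ (F⟮β⟯).toSubalgebra := hz
  rw [adjoin_simple_toSubalgebra_of_isAlgebraic hint.isAlgebraic,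
    Algebra.adjoin_singleton_eq_range_aeval, AlgHom.mem_range] at hz'
  obtain ⟨P₀, hP₀⟩ := hz'
  set P := P₀ %ₘ minpoly F β with hPdef
  have hPz : aeval β P = z := by
    rw [hPdef, modByMonic_eq_sub_mul_div, map_sub, map_mul, minpoly.aeval,
      zero_mul, sub_zero, hP₀]
  have hdeg : P.degree < (minpoly F β).degree := degree_modByMonic_lt _ (minpoly.monic hint)
  rcases eq_or_ne z 0 with rfl | hz0
  · exact ⟨0, hq.pos, by simp⟩
  -- the conjugate
  have hdvd : minpoly F β ∣ P ^ q - C c := minpoly.dvd F β (by simp [hPz, hc])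
  have hconj : (aeval (ζ * β)) (P ^ q - C c) = 0 := by
    obtain ⟨G, hG⟩ := hdvd
    rw [hG, map_mul, hmin]
    simp [mul_pow, hζ.pow_eq_one, ha]
  have : NeZero q := ⟨hq.ne_zero⟩
  obtain ⟨i, hiq, hi⟩ := hζ.eq_pow_of_pow_eq_one (show (aeval (ζ * β) P / z) ^ q = 1 by
    rw [map_sub, map_pow, aeval_C, hc, sub_eq_zero] at hconj
    rw [div_pow, hconj, div_self (pow_ne_zero _ hz0)])
  set Q := P.comp (C ζ₀ * X) - C (ζ₀ ^ i) * P with hQ
  have hQ0 : Q = 0 := by
    by_contra hne
    have h1 : minpoly F β ∣ Q := minpoly.dvd F β (by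
      rw [hQ, map_sub, aeval_comp, map_mul, map_mul, aeval_C, aeval_C, aeval_X, hPz, map_pow,
        hζ₀, hi, div_mul_cancel₀ _ hz0, sub_self])
    refine absurd (degree_le_of_dvd h1 hne) (not_le.2 ?_)
    refine lt_of_le_of_lt ((degree_le_iff_coeff_zero _ _).2 fun k hk => ?_) hdeg
    rw [hQ, coeff_sub, comp_C_mul_X_coeff, coeff_C_mul, coeff_eq_zero_of_degree_lt hk, zero_mul,
      mul_zero, sub_zero]
  have hcoeff : ∀ k, k ≠ i → P.coeff k = 0 := fun k hk => by
    by_cases hkq : k < q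
    · have h1 := congrArg (fun R : F[X] => R.coeff k) hQ0
      simp only [hQ, coeff_sub, comp_C_mul_X_coeff, coeff_C_mul, coeff_zero] at h1
      rw [mul_comm, ← sub_mul, mul_eq_zero, sub_eq_zero] at h1
      refine h1.resolve_left fun h => hk (hζ.pow_inj hkq hiq ?_)
      rw [← hζ₀, ← map_pow, ← map_pow, h]
    · refine coeff_eq_zero_of_degree_lt (hdeg.trans_le ?_)
      rw [hmin, degree_X_pow_sub_C hq.pos]
      exact_mod_cast not_lt.1 hkq
  have hP : P = monomial i (P.coeff i) := by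
    ext k
    rw [coeff_monomial]
    split
    · next h => rw [h]
    · next h => exact hcoeff k (Ne.symm h)
  rw [hP, aeval_monomial] at hPz
  refine ⟨if i = 0 then 0 else q - i, ?_, ?_⟩
  · split
    · exact hq.pos
    · omega
  · rw [← hPz, mul_assoc, ← pow_add]
    split
    · next h => rw [h, add_zero, pow_zero, mul_one]; exact ⟨_, rfl⟩
    · rw [Nat.add_sub_cancel' hiq.le, ← ha]
      exact mul_mem ⟨_, rfl⟩ ⟨a, rfl⟩

/-- **Several radicals.** -/
theorem radicals_descent {ι : Type*} (hq : q.Prime) (hζ : IsPrimitiveRoot ζ q)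
    (hζF : ζ ∈ (algebraMap F E).range) (β : ι → E) (hβ : ∀ i, β i ^ q ∈ (algebraMap F E).range)
    (s : Finset ι) : ∀ z ∈ adjoin F (β '' (s : Set ι)), z ^ q ∈ (algebraMap F E).range →
      ∃ c : ι → ℕ, (∀ i, c i < q) ∧ z * ∏ i ∈ s, β i ^ c i ∈ (algebraMap F E).range := by
  classical
  induction s using Finset.induction_on with
  | empty =>
    intro z hz _
    rw [Finset.coe_empty, Set.image_empty, adjoin_empty, mem_bot] at hz
    exact ⟨0, fun _ => hq.pos, by simpa using hz⟩
  | insert j s hj ih =>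
    intro z hz hzq
    have hmem : ∀ x : E, x ∈ (algebraMap F E).range →
        x ∈ (algebraMap (adjoin F (β '' (s : Set ι))) E).range := fun x hx => by
      obtain ⟨y, rfl⟩ := hx
      exact ⟨algebraMap F _ y, (IsScalarTower.algebraMap_apply F _ E y).symm⟩
    have hz' : z ∈ (adjoin F (β '' (s : Set ι)))⟮β j⟯ := by
      rw [← mem_restrictScalars F, adjoin_adjoin_left, Set.union_singleton, ← Set.image_insert_eq,
        ← Finset.coe_insert]
      exact hz
    obtain ⟨i, hi, hzi⟩ := radical_step hq hζ (hmem _ hζF) (hmem _ (hβ j)) hz' (hmem _ hzq)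
    obtain ⟨w, hw⟩ := hzi
    obtain ⟨c, hc, hcs⟩ := ih (z * β j ^ i) (hw ▸ w.2) (by
      rw [mul_pow, ← pow_mul, mul_comm i, pow_mul]
      exact mul_mem hzq (pow_mem (hβ j) i))
    refine ⟨Function.update c j i, fun k => ?_, ?_⟩
    · rcases eq_or_ne k j with rfl | hk
      · rw [Function.update_self]; exact hi
      · rw [Function.update_of_ne hk]; exact hc k
    · rw [Finset.prod_insert hj, Function.update_self, ← mul_assoc,
        Finset.prod_congr rfl (g := fun k => β k ^ c k) fun k hk => by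
          rw [Function.update_of_ne (fun h : k = j => hj (h ▸ hk))]]
      exact hcs

/-- **The root of unity.** -/
theorem cyclotomic_step (hq : q.Prime) (hζ : IsPrimitiveRoot ζ q) (hz : z ∈ F⟮ζ⟯)
    (hzq : z ^ q ∈ (algebraMap F E).range) :
    ∃ j < q, z * ζ ^ j ∈ (algebraMap F E).range := by
  obtain ⟨a, ha⟩ := hzq
  rcases eq_or_ne z 0 with rfl | hz0
  · exact ⟨0, hq.pos, by simp⟩
  have : NeZero q := ⟨hq.ne_zero⟩
  have hint : IsIntegral F ζ := ⟨X ^ q - C 1, monic_X_pow_sub_C 1 hq.ne_zero, by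
    simp [hζ.pow_eq_one]⟩
  have : FiniteDimensional F F⟮ζ⟯ := adjoin.finiteDimensional hint
  set D := Module.finrank F F⟮ζ⟯ with hD
  have hD0 : 0 < D := Module.finrank_pos
  have hDq : D < q := by
    rw [hD, adjoin.finrank hint]
    refine lt_of_le_of_lt (natDegree_le_of_dvd (minpoly.dvd F ζ (p := cyclotomic q F) ?_)
      (cyclotomic_ne_zero q F)) ?_
    · rw [← eval_map_algebraMap, map_cyclotomic]
      exact hζ.isRoot_cyclotomic hq.pos
    · rw [natDegree_cyclotomic, Nat.totient_prime hq]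
      exact Nat.sub_lt hq.pos one_pos
  set Z : F⟮ζ⟯ := ⟨z, hz⟩
  have hZ : algebraMap F F⟮ζ⟯ a = Z ^ q := Subtype.ext ha
  set N := Algebra.norm F Z
  have hN : N ^ q = a ^ D := by rw [← map_pow, ← hZ, Algebra.norm_algebraMap]
  obtain ⟨u, v, huv⟩ : IsCoprime (q : ℤ) (D : ℤ) := by
    rw [Int.isCoprime_iff_nat_coprime]
    simpa using hq.coprime_iff_not_dvd.2 fun h => absurd (Nat.le_of_dvd hD0 h) (not_le.2 hDq)
  have ha0 : a ≠ 0 := fun h => pow_ne_zero q hz0 (by rw [← ha, h, map_zero])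
  have hN0 : N ≠ 0 := fun h => pow_ne_zero D ha0 (by rw [← hN, h, zero_pow hq.ne_zero])
  set w := a ^ u * N ^ v
  have hw : w ^ q = a := by
    rw [← zpow_natCast, mul_zpow, ← zpow_mul, ← zpow_mul, mul_comm v, zpow_mul N, zpow_natCast,
      hN, ← zpow_natCast a D, ← zpow_mul, ← zpow_add₀ ha0, mul_comm (D : ℤ), huv, zpow_one]
  obtain ⟨j, hj, hjw⟩ := hζ.eq_pow_of_pow_eq_one (show (algebraMap F E w / z) ^ q = 1 by
    rw [div_pow, ← map_pow, hw, ha, div_self (pow_ne_zero _ hz0)])
  exact ⟨j, hj, by rw [hjw, mul_div_cancel₀ _ hz0]; exact ⟨w, rfl⟩⟩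

end FA.BakerLastHeight

end
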