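import Fermat.Agent.BakerLastHeight.Setup
import Fermat.Agent.BakerLastHeight.Radical
import Mathlib.Analysis.Complex.Polynomial.Basic

/-!
# Separation by one radical

The radical of the last number splits the values at `1 / q` into the slabs of the box, and the
binomial weights isolate every point of a slab.
-/

set_option autoImplicit false

noncomputable section

namespace FA.BakerLastHeight

open Finset IntermediateField

variable {K : Type*} [Field K] [Algebra K ℂ]

/-- The degree of a field of radicals. -/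
theorem finrank_adjoin_radicals_le {q : ℕ} (hq : 0 < q) (s : Finset ℂ)
    (hs : ∀ b ∈ s, b ^ q ∈ (algebraMap K ℂ).range) :
    FiniteDimensional K (adjoin K (s : Set ℂ)) ∧
      Module.finrank K (adjoin K (s : Set ℂ)) ≤ q ^ s.card := by
  classical
  have hint : ∀ b ∈ s, IsIntegral K b := fun b hb => by
    obtain ⟨c, hc⟩ := hs b hb
    exact ⟨Polynomial.X ^ q - Polynomial.C c, Polynomial.monic_X_pow_sub_C c hq.ne', by simp [hc]⟩
  refine ⟨finiteDimensional_adjoin fun b hb => hint b hb, ?_⟩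
  induction s using Finset.induction_on with
  | empty => rw [Finset.coe_empty, adjoin_empty, IntermediateField.finrank_bot, Finset.card_empty,
      pow_zero]
  | @insert b s hb ih =>
    let L : IntermediateField K ℂ := adjoin K (s : Set ℂ)
    obtain ⟨c, hc⟩ := hs b (Finset.mem_insert_self b s)
    have hdeg : Module.finrank L (adjoin L ({b} : Set ℂ)) ≤ q := by
      rw [adjoin.finrank ((hint b (Finset.mem_insert_self b s)).tower_top)]
      refine (Polynomial.natDegree_le_of_dvd (minpoly.dvd L b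
        (p := Polynomial.X ^ q - Polynomial.C (algebraMap K L c)) ?_)
        (Polynomial.monic_X_pow_sub_C _ hq.ne').ne_zero).trans
        Polynomial.natDegree_X_pow_sub_C.le
      simp [← hc, ← IsScalarTower.algebraMap_apply]
    rw [Finset.card_insert_of_notMem hb, pow_succ, Finset.coe_insert, Set.insert_eq,
      Set.union_comm, ← adjoin_adjoin_left]
    show Module.finrank K (adjoin L ({b} : Set ℂ)) ≤ _
    rw [← Module.finrank_mul_finrank K L (adjoin L ({b} : Set ℂ))]
    exact Nat.mul_le_mul (ih (fun c hc => hs c (Finset.mem_insert_of_mem hc))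
      fun c hc => hint c (Finset.mem_insert_of_mem hc)) hdeg

open Polynomial in
/-- Fewer than `q` powers of a radical of degree `q` are independent. -/
theorem radical_powers_independent (F : IntermediateField K ℂ) {q M : ℕ} (hq : q.Prime)
    (hM : M ≤ q) {z a : ℂ} (ha : a ∈ F) (hz : z ^ q = a) (hrad : ∀ w ∈ F, w ^ q ≠ a)
    {A : Fin M → F} (h : ∑ v, (A v : ℂ) * z ^ (v : ℕ) = 0) (v : Fin M) : A v = 0 := by
  classical
  set G : F[X] := ∑ v, C (A v) * X ^ (v : ℕ) with hG
  have hGz : aeval z G = 0 := by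
    rw [hG, map_sum, ← h]
    exact sum_congr rfl fun v _ => by simp
  have hirr : Irreducible (X ^ q - C (⟨a, ha⟩ : F)) :=
    X_pow_sub_C_irreducible_of_prime hq fun w hw => hrad w w.2 (congrArg Subtype.val hw)
  have hmin : minpoly F z = X ^ q - C (⟨a, ha⟩ : F) :=
    (minpoly.eq_of_irreducible_of_monic hirr (by simp [hz])
      (monic_X_pow_sub_C _ hq.ne_zero)).symm
  have hG0 : G = 0 := by
    by_contra hne
    refine absurd (degree_le_of_dvd (minpoly.dvd F z hGz) hne) (not_le.2 ?_)
    rw [hmin, degree_X_pow_sub_C hq.pos, hG]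
    exact lt_of_lt_of_le (degree_sum_fin_lt A) (by exact_mod_cast hM)
  have h1 := congrArg (fun R : F[X] => R.coeff (v : ℕ)) hG0
  simpa [hG, coeff_X_pow, Fin.val_inj, Finset.sum_ite_eq] using h1

variable {n L M : ℕ}

/-- **Separation.** The weights vanish. -/
theorem eq_zero_of_last {l : Fin n → ℂ} {l₀ : ℂ} {b : Fin n → ℤ} {b₀ : ℤ} (hb₀ : b₀ ≠ 0)
    (F : IntermediateField K ℂ) {q : ℕ} (hq : q.Prime) (hM : M ≤ q)
    (hβ : ∀ i, Complex.exp (l i / q) ∈ F) (ha : Complex.exp l₀ ∈ F)
    (hrad : ∀ w ∈ F, w ^ q ≠ Complex.exp l₀) {p : Box n L M → ℤ} {T : ℕ} (hT : n * L < T)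
    (hval : ∀ t : Fin n → ℕ, ∑ i, t i < T →
      expSum (fun x => ((p x * weightBinom (coordW b b₀ x) t : ℤ) : ℂ)) (logW l l₀)
        (1 / (q : ℂ)) = 0) (x₀ : Box n L M) :
    p x₀ = 0 := by
  classical
  set z := Complex.exp (l₀ / q) with hzdef
  have hqC : (q : ℂ) ≠ 0 := Nat.cast_ne_zero.2 hq.ne_zero
  have hz : z ^ q = Complex.exp l₀ := by rw [hzdef, ← Complex.exp_nat_mul, mul_div_cancel₀ _ hqC]
  set B : (Fin n → Fin L) → ℂ := fun lam => ∏ i, Complex.exp (l i / q) ^ ((lam i) : ℕ) with hB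
  have hBF : ∀ lam, B lam ∈ F := fun lam => prod_mem fun i _ => pow_mem (hβ i) _
  have hexp : ∀ x : Box n L M,
      Complex.exp (logW l l₀ x * (1 / (q : ℂ))) = B x.1 * z ^ (x.2 : ℕ) := fun x => by
    simp only [hB, hzdef, ← Complex.exp_nat_mul, ← Complex.exp_sum, ← Complex.exp_add, logW,
      add_mul, sum_mul]
    congr 2
    · exact sum_congr rfl fun i _ => by ring
    · ring
  -- the slab
  set c : (Fin n → Fin L) → ℂ := fun lam => (p (lam, x₀.2) : ℂ) * B lam with hc
  have hslab : ∀ t : Fin n → ℕ, ∑ i, t i < T →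
      ∑ lam ∈ univ, c lam * (weightBinom (coordW b b₀ (lam, x₀.2)) t : ℂ) = 0 := fun t ht => by
    let A : Fin M → F := fun v => ∑ lam : Fin n → Fin L,
      ((p (lam, v) * weightBinom (coordW b b₀ (lam, v)) t : ℤ) : F) * ⟨B lam, hBF lam⟩
    have h1 : ∑ v, (A v : ℂ) * z ^ (v : ℕ) = 0 := by
      refine Eq.trans ?_ (hval t ht)
      simp only [expSum, hexp, A]
      rw [Fintype.sum_prod_type_right]
      refine sum_congr rfl fun v _ => ?_
      push_cast
      rw [sum_mul]
      exact sum_congr rfl fun lam _ => mul_assoc _ _ _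
    have h2 := congrArg Subtype.val (radical_powers_independent F hq hM ha hz hrad h1 x₀.2)
    simp only [A, ZeroMemClass.coe_zero, AddSubmonoidClass.coe_finsetSum, MulMemClass.coe_mul,
      SubringClass.coe_intCast] at h2
    refine Eq.trans (sum_congr rfl fun lam _ => ?_) h2
    simp only [hc]
    push_cast
    ring
  set S := univ.filter (fun ia : Fin n × Fin L => ia.2 ≠ x₀.1 ia.1)
  have h0 := sum_weightBinom_prod_eq_zero hslab (Prod.fst : Fin n × Fin L → Fin n)
    (fun ia => ((b ia.1 * (x₀.2 : ℕ) - b₀ * (ia.2 : ℕ) : ℤ) : ℂ)) S 0 (by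
      refine lt_of_le_of_lt ?_ hT
      simp only [Pi.zero_apply, sum_const_zero, zero_add]
      exact (card_filter_le _ _).trans_eq (by simp))
  have hfac : ∀ (lam : Fin n → Fin L) (ia : Fin n × Fin L),
      (coordW b b₀ (lam, x₀.2) ia.1 : ℂ) + ((b ia.1 * (x₀.2 : ℕ) - b₀ * (ia.2 : ℕ) : ℤ) : ℂ) =
        (b₀ : ℂ) * (((lam ia.1 : ℕ) : ℂ) - (ia.2 : ℕ)) := fun lam ia => by
    simp only [coordW]
    push_cast
    ring
  have hw0 : ∀ w : Fin n → ℤ, weightBinom w 0 = 1 := fun w =>
    prod_eq_one fun i _ => Ring.choose_zero_right _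
  simp only [hfac, hw0, Int.cast_one, mul_one] at h0
  rw [sum_eq_single x₀.1 (fun lam _ hne => ?_) (by simp)] at h0
  · refine Int.cast_eq_zero.1 (((mul_eq_zero.1 ((mul_eq_zero.1 h0).resolve_right ?_))).resolve_right
      (prod_ne_zero_iff.2 fun i _ => pow_ne_zero _ (Complex.exp_ne_zero _)))
    rw [prod_eq_zero_iff]
    rintro ⟨ia, hia, hz0⟩
    rw [mul_eq_zero, sub_eq_zero, Nat.cast_inj] at hz0
    exact (mem_filter.1 hia).2 (Fin.ext (hz0.resolve_left (Int.cast_ne_zero.2 hb₀)).symm)
  · obtain ⟨i, hi⟩ := Function.ne_iff.1 hne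
    exact mul_eq_zero_of_right _
      (prod_eq_zero (i := (i, lam i)) (mem_filter.2 ⟨mem_univ _, hi⟩) (by simp))

end FA.BakerLastHeight

end
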