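import Fermat.Agent.BakerLastHeight.Values
import Fermat.Agent.BakerLastHeight.Params
import Fermat.Agent.BakerLastHeight.Separation

/-!
# Baker's theorem linear in the last height, with a radical of full degree

The auxiliary functions are extrapolated to the point `1 / q`, where their values lie in a field of
radicals in which the radical of the last number has degree `q`.
-/

set_option autoImplicit false
set_option linter.unusedSectionVars false

noncomputable section

namespace FA.BakerLastHeight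

open Finset NumberField Module IntermediateField

variable {n L M : ℕ}

/-- The coefficient of a box point at an order. -/
def coefAt (b : Fin n → ℤ) (b₀ : ℤ) (p : Box n L M → ℤ) (t : Fin n → ℕ) (x : Box n L M) : ℤ :=
  p x * weightBinom (coordW b b₀ x) t

/-- Two halved orders fit in one. -/
theorem sum_add_lt {T T' : ℕ} (hT : 2 * T' = T) {t : Fin n → ℕ} {r : ℕ} (ht : ∑ i, t i < T')
    (hr : r < T') : ∑ i, t i + r < T := by omega

variable {K : Type*} [Field K] [NumberField K] [Algebra K ℂ]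

/-- The data at the radicals. -/
theorem radical_numberData {g g₀ q : ℕ} (hq : q ≠ 0) {l : Fin n → ℂ} {l₀ : ℂ}
    (A : NumberData (algebraMap K ℂ) l l₀ g g₀) (F : IntermediateField K ℂ) [NumberField F]
    (hF : ∀ i, Complex.exp (l i / q) ∈ F) (hF₀ : Complex.exp (l₀ / q) ∈ F) :
    Nonempty (NumberData (F.val : F →+* ℂ) (fun i => l i / q) (l₀ / q) g g₀) := by
  have key : ∀ (D e : ℕ) (a : 𝓞 K) (u : ℂ), Complex.exp (u / q) ∈ F → 0 < D → D ≤ 2 ^ e →
      algebraMap K ℂ (a : K) = D * Complex.exp u →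
      (∀ σ : K →+* ℂ, ‖σ (a : K)‖ ≤ (2 : ℝ) ^ (2 * e)) →
      ∃ B : 𝓞 F, F.val (B : F) = D * Complex.exp (u / q) ∧
        ∀ σ : F →+* ℂ, ‖σ (B : F)‖ ≤ (2 : ℝ) ^ (2 * e) := by
    intro D e a u hu hD hDe ha hae
    set y : F := (D : F) * ⟨Complex.exp (u / q), hu⟩ with hy
    set c : F := (D : F) ^ (q - 1) * algebraMap K F (a : K) with hc
    have hyq : y ^ q = c := by
      refine Subtype.ext ?_
      have hpow : (D : ℂ) ^ q = (D : ℂ) ^ (q - 1) * D := (pow_sub_one_mul hq _).symm
      simp only [hy, hc, SubmonoidClass.coe_pow, MulMemClass.coe_mul,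
        SubringClass.coe_natCast, IntermediateField.coe_algebraMap_apply, ha]
      rw [mul_pow, ← Complex.exp_nat_mul, mul_div_cancel₀ _ (Nat.cast_ne_zero.2 hq), hpow]
      ring
    have hint : IsIntegral ℤ c :=
      (isIntegral_natCast (R := ℤ) (B := F) D).pow _ |>.mul
        ((map_isIntegral_int (algebraMap K F)) a.isIntegral_coe)
    refine ⟨⟨y, IsIntegral.of_pow (Nat.pos_of_ne_zero hq) (hyq ▸ hint)⟩, ?_, fun σ => ?_⟩
    · show F.val y = _
      simp [hy]
    · refine le_of_pow_le_pow_left₀ hq (by positivity) ?_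
      show ‖σ y‖ ^ q ≤ _
      rw [← norm_pow, ← map_pow, hyq, hc, map_mul, norm_mul, map_pow, map_natCast, norm_pow,
        Complex.norm_natCast, ← pow_sub_one_mul hq ((2 : ℝ) ^ (2 * e))]
      exact mul_le_mul (pow_le_pow_left₀ (Nat.cast_nonneg _)
        (le_trans (by exact_mod_cast hDe) (pow_le_pow_right₀ one_le_two (by omega))) _)
        (hae (σ.comp (algebraMap K F))) (norm_nonneg _) (by positivity)
  choose B hB hBle using fun i =>
    key (A.den i) g (A.int i) (l i) (hF i) (A.den_pos i) (A.den_le i) (A.map_int i) (A.int_le i)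
  obtain ⟨B₀, hB₀, hB₀le⟩ :=
    key A.den₀ g₀ A.int₀ l₀ hF₀ A.den₀_pos A.den₀_le A.map_int₀ A.int₀_le
  exact ⟨⟨B, A.den, B₀, A.den₀, A.den_pos, A.den₀_pos, A.den_le, A.den₀_le, hB, hB₀, hBle,
    hB₀le⟩⟩

set_option maxHeartbeats 1000000 in
/-- **The sharpened theorem under the radical hypothesis.** -/
theorem lastHeight_core {d h m R P q : ℕ} (hd : finrank ℚ K ≤ d) (hR : 1 ≤ R)
    (hP : 2 ^ baseExp n d * (h + m + 1) ≤ P) {l : Fin n → ℂ} {l₀ : ℂ}
    (A : NumberData (algebraMap K ℂ) l l₀ h (h * R)) (hl : ∀ i, ‖l i‖ ≤ h)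
    (hl₀ : ‖l₀‖ ≤ (h * R : ℕ)) {b : Fin n → ℤ} {b₀ : ℤ}
    (hb : ∀ i, (b i).natAbs ≤ 2 ^ m * R)
    (hb₀m : b₀.natAbs ≤ 2 ^ m) (hb₀ : b₀ ≠ 0) (hq : q.Prime) (hMq : side n P < q)
    (hq2 : q ≤ 2 * side n P)
    (hrad : ∀ w ∈ adjoin K (Set.range fun i => Complex.exp (l i / q)),
      w ^ q ≠ Complex.exp l₀) :
    1 / (2 : ℝ) ^ (R * P ^ coreKappa n) ≤ ‖∑ i, (b i : ℂ) * l i + (b₀ : ℂ) * l₀‖ := by
  classical
  by_contra hlt
  push Not at hlt
  set Λ := ∑ i, (b i : ℂ) * l i + (b₀ : ℂ) * l₀ with hΛ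
  have hd1 : 1 ≤ d := le_trans finrank_pos hd
  obtain ⟨hP1, -, -, hJP⟩ := base_le hd1 hP
  set J := stepCount n with hJ
  set Y := R * P ^ coreKappa n with hY
  set Ω := freqBound n h P R
  set Z := orderUnit n P R
  set U := termU n h m P R with hU
  set w := interpLog n P R
  set σ := rangeS P J with hσ
  obtain ⟨hLZ, hMZ⟩ := side_le_orderUnit (n := n) hR hP1
  set Mb := side n P with hMb
  set Lb := R * Mb with hLb
  have hM1 : 1 ≤ Mb := Nat.one_le_pow _ _ hP1
  have hML : Mb ≤ Lb := Nat.le_mul_of_pos_left _ hR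
  have hZ0 : Z ≤ orderT n P R 0 := orderUnit_le_orderT _ _ _ _
  have hSσ : ∀ {j}, j ≤ J → rangeS P j ≤ σ := fun hj => Nat.pow_le_pow_right hP1 (by omega)
  have hΩ : n * (Lb * h) + Mb * (h * R) ≤ Ω := by
    have e : n * (Lb * h) + Mb * (h * R) = (n + 1) * (h * (R * Mb)) := by rw [hLb]; ring
    rw [e]
    exact Nat.mul_le_mul_left _ (Nat.mul_le_mul_right _ (Nat.le_succ h))
  have hμ : ∀ x : Box n Lb Mb, ‖logW l l₀ x‖ ≤ (Ω : ℝ) := fun x =>
    (norm_logW_le hl hl₀ x).trans (by exact_mod_cast hΩ)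
  have hgain_last : U + 2 * (Ω * (16 * σ)) + liouville n h m P R (d * q ^ (n + 1)) 1 + 2 ≤
      2 * (σ * Z) := last_gain hd1 hR hP hq2 le_rfl
  have hgain : ∀ j < J, U + 2 * (Ω * (16 * rangeS P (j + 1))) +
      liouville n h m P R d (rangeS P (j + 1)) + 2 ≤
        2 * (rangeS P j * orderT n P R (j + 1)) := fun j _ => step_gain hd1 hR hP j
  have hbudget : ∀ E, E ≤ 2 * (σ * orderT n P R 0) →
      U + 2 * (Ω * σ) + 1 + (σ + Mb) + 2 * Ω + w + 1 + E + 2 ≤ Y := fun E hE =>
    coreLoss_le hd1 hR hP hE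
  have hMbY : Mb + 1 ≤ Y := by
    have := hbudget 0 (Nat.zero_le _)
    omega
  have hν : ∀ x : Box n Lb Mb, ‖freqW l b b₀ x‖ ≤ (Ω : ℝ) := fun x => by
    have h1 := norm_sub_freqW_le hb₀ l l₀ b x
    rw [← hΛ] at h1
    have h2 : (Mb : ℝ) * ‖Λ‖ ≤ 1 := by
      refine (mul_le_mul (show (Mb : ℝ) ≤ (2 : ℝ) ^ Mb by exact_mod_cast Nat.lt_two_pow_self.le)
        hlt.le (norm_nonneg _) (by positivity)).trans ?_
      rw [mul_one_div, div_le_one (by positivity)]
      exact pow_le_pow_right₀ one_le_two (by omega)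
    have h3 := norm_le_norm_add_norm_sub' (freqW l b b₀ x) (logW l l₀ x)
    have h4 := norm_logW_le hl hl₀ x
    have h5 : ((n * (Lb * h) + Mb * (h * R) : ℕ) : ℝ) + 1 ≤ (Ω : ℝ) := by
      have e : n * (Lb * h) + Mb * (h * R) + 1 ≤ Ω := by
        have e1 : n * (Lb * h) + Mb * (h * R) = (n + 1) * (h * (R * Mb)) := by rw [hLb]; ring
        have e2 : Ω = (n + 1) * (h * (R * Mb)) + (n + 1) * (R * Mb) := by
          show (n + 1) * ((h + 1) * (R * Mb)) = _
          ring
        have e3 : 1 ≤ (n + 1) * (R * Mb) := Nat.mul_pos (Nat.succ_pos n) (Nat.mul_pos hR hM1)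
        omega
      exact_mod_cast e
    rw [norm_sub_rev] at h3
    linarith
  -- the binomial weights
  have hcoef : ∀ (t : Fin n → ℕ) (x : Box n Lb Mb), (∀ i, t i ≤ orderT n P R 0) →
      (weightBinom (coordW b b₀ x) t).natAbs ≤ 2 ^ binomLog n m P R := fun t x ht => by
    rw [binomLog, mul_assoc]
    refine natAbs_weightBinom_le (k := m + 2) ht fun i => ?_
    calc (coordW b b₀ x i).natAbs + orderT n P R 0
        ≤ 2 ^ (m + 1) * orderT n P R 0 + 2 ^ (m + 1) * orderT n P R 0 :=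
          Nat.add_le_add ((natAbs_coordW_le hb hb₀m le_rfl x i).trans
            (Nat.mul_le_mul_left _ (hLZ.trans hZ0))) (Nat.le_mul_of_pos_left _ (Nat.two_pow_pos _))
      _ = _ := by rw [pow_succ 2 (m + 1)]; ring
  have hcard : Fintype.card (Box n Lb Mb) = Lb ^ n * Mb := by simp
  -- Siegel's lemma
  let x : (Fin n → Fin (orderT n P R 0)) × Fin (rangeS P 0) → Box n Lb Mb → 𝓞 K := fun tk y =>
    (weightBinom (coordW b b₀ y) (fun i => (tk.1 i).val) : 𝓞 K) *
      intWeight A.int A.int₀ A.den A.den₀ tk.2.val y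
  obtain ⟨p, hp0, hpA, hpb⟩ := BakerExplicit.Algebraic.exists_int_solution x (by
      simp only [Fintype.card_prod, Fintype.card_fun, Fintype.card_fin]
      exact Nat.mul_pos (pow_pos (lt_of_lt_of_le (Nat.mul_pos hR (pow_pos hP1 _)) hZ0) _)
        (pow_pos hP1 _)) (by
      rw [hcard]
      simp only [Fintype.card_prod, Fintype.card_fun, Fintype.card_fin]
      exact le_trans (by gcongr) (unknowns_le hd1 hP))
    (a := binomLog n m P R + 2 * (Ω * rangeS P 0))
    (ν := unknownLog n P R) (hcard.trans_le unknowns_pow_le) fun tk y τ => by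
    simp only [x, map_mul, map_intCast, norm_mul, Complex.norm_intCast]
    rw [pow_add, ← Int.cast_abs, ← Int.natCast_natAbs, Int.cast_natCast]
    refine mul_le_mul (by exact_mod_cast hcoef _ y fun i => (tk.1 i).isLt.le)
      ((norm_intWeight_le A hΩ _ y τ).trans (pow_le_pow_right₀ one_le_two
        (Nat.mul_le_mul_left 2 (Nat.mul_le_mul_left _ tk.2.isLt.le)))) (norm_nonneg _)
      (by positivity)
  let val : (Fin n → ℕ) → ℂ → ℂ := fun t z =>
    expSum (fun y => (coefAt b b₀ p t y : ℂ)) (logW l l₀) z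
  have hterm : ∀ t : Fin n → ℕ, ∑ i, t i ≤ orderT n P R 0 → ∀ y : Box n Lb Mb,
      (Fintype.card (Box n Lb Mb) : ℝ) * ‖(coefAt b b₀ p t y : ℂ)‖ ≤ (2 : ℝ) ^ U := fun t ht y => by
    rw [Complex.norm_intCast, ← Int.cast_abs, ← Int.natCast_natAbs, Int.cast_natCast, hcard]
    have h1 : Lb ^ n * Mb * (coefAt b b₀ p t y).natAbs ≤ 2 ^ U := by
      have e : U = unknownLog n P R + ((unknownLog n P R +
          (binomLog n m P R + 2 * (Ω * rangeS P 0)) + 2) + binomLog n m P R) := by
        rw [hU, termU]; ring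
      rw [coefAt, Int.natAbs_mul, e, pow_add 2 (unknownLog n P R),
        pow_add 2 (unknownLog n P R + (binomLog n m P R + 2 * (Ω * rangeS P 0)) + 2)]
      exact Nat.mul_le_mul unknowns_pow_le (Nat.mul_le_mul (hpb y) (hcoef t y fun i =>
        (single_le_sum (fun _ _ => Nat.zero_le _) (mem_univ i)).trans ht))
    exact_mod_cast h1
  let Vanish : ℕ → Prop := fun j => ∀ t : Fin n → ℕ, ∑ i, t i < orderT n P R j →
    ∀ k < rangeS P j, val t k = 0
  have hstart : Vanish 0 := fun t ht k hk => by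
    have h1 := hpA (fun i => ⟨t i, lt_of_le_of_lt
      (single_le_sum (fun _ _ => Nat.zero_le _) (mem_univ i)) ht⟩, ⟨k, hk⟩)
    have h2 := congrArg (fun z : 𝓞 K => algebraMap K ℂ (z : K)) h1
    simp only [x, map_sum, map_mul, map_intCast, map_intWeight, map_zero] at h2
    have h3 : ((((∏ i, A.den i ^ (Lb * k)) * A.den₀ ^ (Mb * k) : ℕ) : ℂ)) * val t k = 0 := by
      refine Eq.trans ?_ h2
      simp only [val, expSum, mul_sum, coefAt]
      push_cast
      exact sum_congr rfl fun y _ => by ring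
    exact (mul_eq_zero.1 h3).resolve_left (Nat.cast_ne_zero.2 (Nat.pos_iff_ne_zero.1
      (Nat.mul_pos (prod_pos fun i _ => pow_pos (A.den_pos i) _) (pow_pos A.den₀_pos _))))
  have hnodes : ∀ j, Vanish j → ∀ {T' : ℕ}, 2 * T' = orderT n P R j →
      ∀ t : Fin n → ℕ, ∑ i, t i < T' → ∀ k < rangeS P j, ∀ r < T',
        expSum (fun y => (coefAt b b₀ p t y : ℂ) * freqW l b b₀ y ^ r) (logW l l₀) k = 0 :=
    fun j hj T' hT' t ht k hk r hr =>
      expSum_deriv_eq_zero l l₀ b b₀ (fun t' ht' => hj t' ht' k hk) (sum_add_lt hT' ht hr)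
  have hw : ∀ {m' ρ T' : ℕ}, m' ≤ σ → ρ ≤ σ → T' ≤ orderT n P R 0 →
      m' * (16 * 2 ^ m') ^ T' * (17 * ρ) ^ ((m' + 1) * T') ≤ 2 ^ w := fun hm' hρ hT' =>
    interp_const_le hm' hρ hT' (by
      rw [rangeS, mul_comm (stepCount n + 2), pow_mul]
      exact Nat.pow_le_pow_left Nat.lt_two_pow_self.le _)
  have hlossE : ∀ j ≤ J, ∀ E, E ≤ 2 * (rangeS P j * orderT n P R (j + 1)) →
      U + 2 * (Ω * σ) + 1 + (σ + Mb) + 2 * Ω + w + 1 + E + 2 ≤ Y := fun j hj E hE =>
    hbudget E (hE.trans (Nat.mul_le_mul_left 2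
      (Nat.mul_le_mul (hSσ hj) (orderT_anti (Nat.zero_le _)))))
  have hstep : ∀ j < J, Vanish j → Vanish (j + 1) := fun j hj hvan t ht k hk => by
    have ht0 : ∑ i, t i ≤ orderT n P R 0 := ht.le.trans (orderT_anti (Nat.zero_le _))
    rcases value_eq_zero_or_ge A hd hΩ (hterm t ht0) k with h0 | hge
    · exact h0
    · exfalso
      have hsm := small_value hb₀ hμ hν (hterm t ht0)
        (hnodes j hvan (orderT_succ hj.le) t ht) hlt.le
        (Nat.pow_le_pow_right hP1 (by omega)) (hSσ hj) (Nat.one_le_pow _ _ hP1)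
        (hw (hSσ hj.le) (hSσ hj) (orderT_anti (Nat.zero_le _)))
        (hlossE j hj.le (liouville n h m P R d (rangeS P (j + 1)))
          (by have := hgain j hj; omega)) (hgain j hj) (z := (k : ℂ))
        (by rw [Complex.norm_natCast]; exact_mod_cast hk.le)
      refine absurd (le_trans ?_ hge) (not_le.2 hsm)
      refine one_div_le_one_div_of_le (by positivity) (pow_le_pow_right₀ one_le_two ?_)
      rw [liouville]
      gcongr
  have hall : ∀ j ≤ J, Vanish j := by
    intro j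
    induction j with
    | zero => exact fun _ => hstart
    | succ j ih => exact fun hj => hstep j hj (ih (Nat.le_of_succ_le hj))
  -- the last step at `1 / q`
  have hqC : (q : ℂ) ≠ 0 := Nat.cast_ne_zero.2 hq.ne_zero
  let s : Finset ℂ := insert (Complex.exp (l₀ / q)) (univ.image fun i => Complex.exp (l i / q))
  have hs : ∀ y ∈ s, y ^ q ∈ (algebraMap K ℂ).range := by
    have key : ∀ (u : ℂ) (a : 𝓞 K) (D : ℕ), 0 < D → algebraMap K ℂ (a : K) = D * Complex.exp u →
        Complex.exp (u / q) ^ q ∈ (algebraMap K ℂ).range := fun u a D hD ha =>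
      ⟨(a : K) / D, by
        rw [map_div₀, map_natCast, ha, mul_div_cancel_left₀ _ (Nat.cast_ne_zero.2 hD.ne'),
          ← Complex.exp_nat_mul, mul_div_cancel₀ _ hqC]⟩
    intro y hy
    rcases Finset.mem_insert.1 hy with rfl | hy
    · exact key _ _ _ A.den₀_pos A.map_int₀
    · obtain ⟨i, -, rfl⟩ := mem_image.1 hy
      exact key _ _ _ (A.den_pos i) (A.map_int i)
  obtain ⟨hfin, hdeg⟩ := finrank_adjoin_radicals_le hq.pos s hs
  let F := adjoin K (s : Set ℂ)
  have : FiniteDimensional K F := hfin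
  have : NumberField F :=
    { to_charZero := charZero_of_injective_algebraMap (algebraMap K F).injective
      to_finiteDimensional := Module.Finite.trans K F }
  have hFdeg : finrank ℚ F ≤ d * q ^ (n + 1) := by
    rw [← Module.finrank_mul_finrank ℚ K F]
    refine Nat.mul_le_mul hd (hdeg.trans (Nat.pow_le_pow_right hq.pos ?_))
    exact (card_insert_le _ _).trans (Nat.succ_le_succ (card_image_le.trans_eq (by simp)))
  obtain ⟨A'⟩ := radical_numberData hq.ne_zero A F
    (fun i => subset_adjoin K _ (mem_coe.2 (Finset.mem_insert_of_mem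
      (mem_image_of_mem _ (mem_univ i)))))
    (subset_adjoin K _ (mem_coe.2 (Finset.mem_insert_self _ _)))
  have hT' : 2 * Z = orderT n P R J := by
    rw [orderT, show stepCount n + 1 - J = 1 by omega, pow_one]
  have hlast : ∀ t : Fin n → ℕ, ∑ i, t i < Z → val t (1 / (q : ℂ)) = 0 := fun t ht => by
    have ht0 : ∑ i, t i ≤ orderT n P R 0 := ht.le.trans hZ0
    have e : val t (1 / (q : ℂ)) = expSum (fun y => (coefAt b b₀ p t y : ℂ))
        (logW (fun i => l i / q) (l₀ / q)) ((1 : ℕ) : ℂ) := by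
      simp only [val, expSum, logW, add_mul, sum_mul, Nat.cast_one, mul_one]
      refine sum_congr rfl fun y _ => ?_
      congr 2
      congr 1
      · exact sum_congr rfl fun i _ => by ring
      · ring
    rw [e]
    rcases value_eq_zero_or_ge A' hFdeg hΩ (hterm t ht0) 1 with h0 | hge
    · exact h0
    · exfalso
      rw [← e] at hge
      have hsm := small_value hb₀ hμ hν (hterm t ht0)
        (hnodes J (hall J le_rfl) hT' t ht) hlt.le
        le_rfl le_rfl (Nat.one_le_pow _ _ hP1) (hw le_rfl le_rfl hZ0)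
        (hbudget (liouville n h m P R (d * q ^ (n + 1)) 1) (le_trans (by omega)
          (Nat.mul_le_mul_left 2 (Nat.mul_le_mul_left σ hZ0)))) hgain_last (z := 1 / (q : ℂ))
        (by
          rw [norm_div, norm_one, Complex.norm_natCast, one_div]
          exact (inv_le_one_of_one_le₀ (by exact_mod_cast hq.pos)).trans
            (by exact_mod_cast Nat.one_le_pow _ _ hP1))
      exact absurd hge (not_le.2 hsm)
  refine hp0 (funext fun x₀ => ?_)
  refine eq_zero_of_last hb₀ (adjoin K (Set.range fun i => Complex.exp (l i / q))) hq hMq.le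
    (fun i => subset_adjoin K _ ⟨i, rfl⟩) ?_ hrad (T := Z) ?_ hlast x₀
  · have h1 := IntermediateField.algebraMap_mem
      (adjoin K (Set.range fun i => Complex.exp (l i / q))) ((A.int₀ : K) / A.den₀)
    rwa [map_div₀, map_natCast, A.map_int₀,
      mul_div_cancel_left₀ _ (Nat.cast_ne_zero.2 A.den₀_pos.ne')] at h1
  · calc n * Lb < (n + 1) * Lb := Nat.mul_lt_mul_of_pos_right (Nat.lt_succ_self n) (hM1.trans hML)
      _ ≤ P ^ 3 * Lb := Nat.mul_le_mul_right _ (le_trans ?_ (Nat.le_self_pow three_ne_zero P))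
      _ = Z := by simp only [hLb, hMb, Z, orderUnit, ← side_mul]; ring
    have h1 : n ≤ J := by
      rw [hJ, stepCount]
      nlinarith
    have h2 := Nat.le_mul_of_pos_right (J + 8) (Nat.two_pow_pos (J + 6))
    omega

end FA.BakerLastHeight

end
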