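import Fermat.Agent.AbelianHeight.HeightMap
import Fermat.Agent.BakerExplicit.Setup

/-!
# Denominator and conjugates from the height
-/

set_option autoImplicit false

noncomputable section

namespace FA.BakerLastHeight

open NumberField Module Finset

variable {K : Type*} [Field K] [NumberField K]

/-- A number has a natural denominator and conjugates at most its height. -/
theorem exists_den_le (x : K) :
    ∃ D : ℕ, 0 < D ∧ IsIntegral ℤ ((D : K) * x) ∧ (D : ℝ) ≤ Height.mulHeight₁ x ∧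
      ∀ σ : K →+* ℂ, ‖σ x‖ ≤ Height.mulHeight₁ x := by
  classical
  obtain ⟨n, hn, a, ha, -⟩ := exists_nat_ne_zero_exists_integer_mul_eq_and_absNorm_span_eq_pow x
  have hn' : (0 : ℝ) < n := by exact_mod_cast Nat.pos_of_ne_zero hn
  have key := FA.AbelianHeight.mulHeight_mul_absNorm hn ha
  set I := Ideal.span {a, (n : 𝓞 K)} with hI
  obtain ⟨J, hJ⟩ : I ∣ Ideal.span {(n : 𝓞 K)} :=
    Ideal.dvd_iff_le.2 (Ideal.span_mono (by simp))
  have hN : Ideal.absNorm I * Ideal.absNorm J = n ^ finrank ℚ K := by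
    rw [← map_mul, ← hJ, Ideal.absNorm_span_singleton]
    rw [show ((n : 𝓞 K)) = algebraMap ℤ (𝓞 K) (n : ℤ) by simp, Algebra.norm_algebraMap,
      Int.natAbs_pow, Int.natAbs_natCast, RingOfIntegers.rank]
  have hI0 : 0 < Ideal.absNorm I := Nat.pos_of_ne_zero fun h => by
    rw [h, zero_mul] at hN
    exact pow_ne_zero _ hn hN.symm
  have hprod : ∀ σ : K →+* ℂ, max ‖σ (a : K)‖ (n : ℝ) * (n : ℝ) ^ (finrank ℚ K - 1) ≤
      ∏ φ : K →+* ℂ, max ‖φ (a : K)‖ (n : ℝ) := fun σ => by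
    rw [← mul_prod_erase univ _ (mem_univ σ), show finrank ℚ K - 1 = (univ.erase σ).card by
      rw [card_erase_of_mem (mem_univ σ), card_univ, Embeddings.card], ← prod_const]
    exact mul_le_mul_of_nonneg_left (prod_le_prod (fun _ _ => hn'.le) fun φ _ => le_max_right _ _)
      (le_max_of_le_right hn'.le)
  obtain ⟨σ₀⟩ := (inferInstance : Nonempty (K →+* ℂ))
  have hd : (n : ℝ) * (n : ℝ) ^ (finrank ℚ K - 1) = (n : ℝ) ^ finrank ℚ K :=
    mul_pow_sub_one finrank_pos.ne' _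
  refine ⟨Ideal.absNorm J, Nat.pos_of_ne_zero fun h => by
    rw [h, mul_zero] at hN; exact pow_ne_zero _ hn hN.symm, ?_, ?_, fun σ => ?_⟩
  · obtain ⟨w, hw⟩ := Ideal.mem_span_singleton.1 (hJ ▸ Ideal.mul_mem_mul
      (show a ∈ I from Ideal.subset_span (by simp)) (Ideal.absNorm_mem J))
    have hwK : (a : K) * (Ideal.absNorm J : K) = (n : K) * (w : K) := by
      have h1 := congrArg (fun z : 𝓞 K => (z : K)) hw
      simpa using h1
    have e : (Ideal.absNorm J : K) * x = (w : K) := by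
      refine mul_left_cancel₀ (Nat.cast_ne_zero.2 hn : (n : K) ≠ 0) ?_
      rw [← hwK, ← ha]
      ring
    rw [e]
    exact w.isIntegral_coe
  · refine le_of_mul_le_mul_left ?_ (Nat.cast_pos.2 hI0 : (0 : ℝ) < Ideal.absNorm I)
    rw [← Nat.cast_mul, hN, Nat.cast_pow, mul_comm, key, ← hd]
    exact le_trans (mul_le_mul_of_nonneg_right (le_max_right _ _) (by positivity)) (hprod σ₀)
  · have hIn : (Ideal.absNorm I : ℝ) ≤ (n : ℝ) ^ finrank ℚ K := by
      rw [← Nat.cast_pow, ← hN]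
      exact_mod_cast Nat.le_mul_of_pos_right _ (Nat.pos_of_ne_zero fun h => by
        rw [h, mul_zero] at hN; exact pow_ne_zero _ hn hN.symm)
    have hax : ‖σ (a : K)‖ = n * ‖σ x‖ := by
      rw [← ha, map_mul, map_natCast, norm_mul, Complex.norm_natCast]
    refine le_of_mul_le_mul_right ?_ (pow_pos hn' (finrank ℚ K))
    calc ‖σ x‖ * (n : ℝ) ^ finrank ℚ K = ‖σ (a : K)‖ * (n : ℝ) ^ (finrank ℚ K - 1) := by
          rw [← hd, hax]; ring
      _ ≤ max ‖σ (a : K)‖ (n : ℝ) * (n : ℝ) ^ (finrank ℚ K - 1) :=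
          mul_le_mul_of_nonneg_right (le_max_left _ _) (by positivity)
      _ ≤ Height.mulHeight₁ x * (Ideal.absNorm I : ℝ) := by rw [key]; exact hprod σ
      _ ≤ _ := mul_le_mul_of_nonneg_left hIn (Height.mulHeight₁_nonneg x)

/-- A number of height at most `g` (natural logarithm). -/
theorem exists_data_of_height {x : K} {g : ℕ} (hx : Height.logHeight₁ x ≤ g) :
    ∃ D : ℕ, 0 < D ∧ D ≤ 2 ^ (2 * g) ∧ IsIntegral ℤ ((D : K) * x) ∧
      ∀ σ : K →+* ℂ, ‖σ x‖ ≤ (2 : ℝ) ^ (2 * g) := by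
  obtain ⟨D, hD, hint, hDle, hσ⟩ := exists_den_le x
  have h : Height.mulHeight₁ x ≤ (2 : ℝ) ^ (2 * g) := by
    refine le_trans ?_ (BakerExplicit.exp_natCast_le_two_pow g)
    rw [← Real.exp_log (Height.mulHeight₁_pos x), ← Height.logHeight₁_eq_log_mulHeight₁]
    exact Real.exp_le_exp.2 hx
  exact ⟨D, hD, by exact_mod_cast hDle.trans h, hint, fun σ => (hσ σ).trans h⟩

end FA.BakerLastHeight

end
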