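import Fermat.Agent.BakerLastHeight.Core
import Fermat.Agent.BakerLastHeight.HeightData
import Fermat.Agent.Root.SummaryThueEffective
import Mathlib.Analysis.SpecialFunctions.Complex.Log
import Mathlib.Analysis.Real.Pi.Bounds
import Mathlib.NumberTheory.Bertrand

/-!
# Baker's theorem linear in the last height

If the radical of the last number has not the full degree, the number is a `q`-th power up to the
numbers of small height, and replacing it divides `R` by `q`.
-/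

set_option autoImplicit false
set_option linter.unusedSectionVars false

noncomputable section

namespace FA.BakerLastHeight

open Finset NumberField Module IntermediateField
open scoped Real

/-- The exponent of the base of the descent. -/
def descExp (N d : ℕ) : ℕ := 16 * coreKappa N * (coreKappa N + d)

/-- The growth of `h + m + 1` in a step of the descent. -/
def descGrowth (N d : ℕ) : ℕ := 2 * ((3 * N + 4) * (descExp N d + 2))

/-- Below this `R` the general theorem is used. -/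
def descThreshold (N d : ℕ) : ℕ := 2 * (N + 1) * descGrowth N d ^ (2 * coreKappa N)

/-- The constant of the descent. -/
def descConst (N d : ℕ) : ℕ :=
  2 ^ descExp N d + 2 ^ (4 * (N + 1) ^ 2 + 18) * d * (2 * (N + 1) * (descThreshold N d + 1))

/-- The exponent of the theorem. -/
def lastHeightKappa (n : ℕ) : ℕ := 2 * coreKappa (n + 1)

/-- The constant of the theorem. -/
def lastHeightConst (n d : ℕ) : ℕ := 8 * descConst (n + 1) d

variable {N d h m : ℕ}

theorem coreKappa_facts (N : ℕ) :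
    3 * N + 14 ≤ coreKappa N ∧ 6 * (N + 1) ^ 2 + 6 * (N + 1) + 6 ≤ 2 * coreKappa N ∧
      (stepCount N + 2) * (N + 2) + 2 * N + 17 ≤ 8 * coreKappa N * coreKappa N := by
  refine ⟨by rw [coreKappa, stepCount]; omega, by rw [coreKappa, stepCount]; nlinarith, ?_⟩
  have h1 : stepCount N + 2 ≤ coreKappa N := by rw [coreKappa]; omega
  have h2 : N + 2 ≤ coreKappa N := by rw [coreKappa]; omega
  have h3 : 2 * N + 17 ≤ 3 * coreKappa N := by rw [coreKappa]; omega
  have h4 := Nat.mul_le_mul h1 h2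
  have h5 : coreKappa N ≤ coreKappa N * coreKappa N := Nat.le_mul_self _
  have h6 : 8 * coreKappa N * coreKappa N = 8 * (coreKappa N * coreKappa N) := mul_assoc _ _ _
  omega

theorem baseExp_le_descExp (N d : ℕ) : baseExp N d + 1 ≤ descExp N d := by
  obtain ⟨h1, -, h3⟩ := coreKappa_facts N
  have h4 : d ≤ 16 * coreKappa N * d := Nat.le_mul_of_pos_left _ (by omega)
  rw [baseExp, descExp, Nat.mul_add (16 * coreKappa N)]
  have h5 : 16 * coreKappa N * coreKappa N = 2 * (8 * coreKappa N * coreKappa N) := by ring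
  omega

theorem two_mul_growth_le {P : ℕ} (hP : 2 ^ descExp N d ≤ P) :
    2 * descGrowth N d ^ (2 * coreKappa N) ≤ side N P := by
  obtain ⟨hκ, -, -⟩ := coreKappa_facts N
  set κ := coreKappa N with hκdef
  have hG : descExp N d + 2 ≤ 2 ^ (5 + 2 * (κ + d)) := by
    have h1 := Nat.lt_two_pow_self (n := κ + d)
    have h2 : descExp N d ≤ 16 * (κ + d) * (κ + d) := by
      rw [descExp, ← hκdef]; gcongr; omega
    rw [pow_add, mul_comm 2 (κ + d), pow_mul]
    nlinarith [Nat.mul_le_mul h1.le h1.le]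
  have hW : descGrowth N d ≤ 2 ^ (4 * (κ + d)) := by
    refine (Nat.mul_le_mul_left 2 (Nat.mul_le_mul
      ((show 3 * N + 4 ≤ κ by omega).trans Nat.lt_two_pow_self.le) hG)).trans ?_
    rw [← pow_add, ← pow_succ']
    exact Nat.pow_le_pow_right two_pos (by omega)
  calc 2 * descGrowth N d ^ (2 * κ) ≤ 2 * (2 ^ (4 * (κ + d))) ^ (2 * κ) :=
        Nat.mul_le_mul_left 2 (Nat.pow_le_pow_left hW _)
    _ = 2 ^ (8 * κ * (κ + d) + 1) := by rw [← pow_mul, pow_succ]; ring
    _ ≤ (2 ^ descExp N d) ^ (3 * N + 3) := by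
        rw [← pow_mul]
        refine Nat.pow_le_pow_right two_pos ?_
        have h1 : 1 ≤ κ * (κ + d) := Nat.mul_pos (by omega) (by omega)
        have e1 : 8 * κ * (κ + d) = 8 * (κ * (κ + d)) := mul_assoc _ _ _
        have e2 : descExp N d = 16 * (κ * (κ + d)) := by rw [descExp, ← hκdef, mul_assoc]
        have e3 : descExp N d * 3 ≤ descExp N d * (3 * N + 3) := Nat.mul_le_mul_left _ (by omega)
        omega
    _ ≤ side N P := Nat.pow_le_pow_left hP _

theorem growth_le (N G : ℕ) {X : ℕ} (hX : 1 ≤ X) :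
    X + ((3 * N + 3) * (G + X) + 2) ≤ (3 * N + 4) * (G + 2) * X := by
  calc X + ((3 * N + 3) * (G + X) + 2) ≤ X + ((3 * N + 3) * (G * X + X) + 2 * X) := by
        gcongr <;> exact Nat.le_mul_of_pos_right _ hX
    _ = ((3 * N + 3) * (G + 1) + 3) * X := by ring
    _ ≤ _ := Nat.mul_le_mul_right _ (by nlinarith)

variable {K : Type*} [Field K] [NumberField K] [Algebra K ℂ]

/-- The data from the heights. -/
theorem exists_numberData {n R : ℕ} {α : Fin n → K} {α₀ : K} {l : Fin n → ℂ} {l₀ : ℂ}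
    (hexp : ∀ i, Complex.exp (l i) = algebraMap K ℂ (α i))
    (hexp₀ : Complex.exp l₀ = algebraMap K ℂ α₀) (hα : ∀ i, Height.logHeight₁ (α i) ≤ h)
    (hα₀ : Height.logHeight₁ α₀ ≤ (h * R : ℕ)) :
    Nonempty (NumberData (algebraMap K ℂ) l l₀ (2 * h) (2 * h * R)) := by
  choose D hD hDle hint hσ using fun i => exists_data_of_height (hα i)
  obtain ⟨D₀, hD₀, hD₀le, hint₀, hσ₀⟩ := exists_data_of_height hα₀
  have key : ∀ {D g : ℕ} {x : K}, D ≤ 2 ^ g → (∀ σ : K →+* ℂ, ‖σ x‖ ≤ (2 : ℝ) ^ g) →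
      ∀ σ : K →+* ℂ, ‖σ ((D : K) * x)‖ ≤ (2 : ℝ) ^ (2 * g) := by
    intro D g x hD hx σ
    rw [map_mul, norm_mul, map_natCast, Complex.norm_natCast, two_mul, pow_add]
    exact mul_le_mul (by exact_mod_cast hD) (hx σ) (norm_nonneg _) (by positivity)
  refine ⟨⟨fun i => ⟨(D i : K) * α i, hint i⟩, D, ⟨(D₀ : K) * α₀, hint₀⟩, D₀, hD, hD₀, hDle,
    by rw [mul_assoc]; exact hD₀le, fun i => ?_, ?_, fun i => key (hDle i) (hσ i), ?_⟩⟩
  · show algebraMap K ℂ ((D i : K) * α i) = _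
    rw [map_mul, map_natCast, hexp]
  · show algebraMap K ℂ ((D₀ : K) * α₀) = _
    rw [map_mul, map_natCast, hexp₀]
  · rw [mul_assoc]
    exact key hD₀le hσ₀

/-- The general theorem below the threshold. -/
theorem bound_small (hd : finrank ℚ K ≤ d) {R : ℕ} (hR : 1 ≤ R) (hRt : R ≤ descThreshold N d)
    {α : Fin N → K} {α₀ : K} {l : Fin N → ℂ} {l₀ : ℂ}
    (hexp : ∀ i, Complex.exp (l i) = algebraMap K ℂ (α i))
    (hexp₀ : Complex.exp l₀ = algebraMap K ℂ α₀) (hα : ∀ i, Height.logHeight₁ (α i) ≤ h)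
    (hα₀ : Height.logHeight₁ α₀ ≤ (h * R : ℕ)) (hl : ∀ i, ‖l i‖ ≤ h) (hl₀ : ‖l₀‖ ≤ (h * R : ℕ))
    {b : Fin N → ℤ} {b₀ : ℤ} (hb : ∀ i, (b i).natAbs ≤ 2 ^ m * R) (hb₀m : b₀.natAbs ≤ 2 ^ m)
    (hne : ∑ i, (b i : ℂ) * l i + (b₀ : ℂ) * l₀ ≠ 0) :
    1 / (2 : ℝ) ^ (R * (descConst N d * (h + m + 1)) ^ (2 * coreKappa N)) ≤
      ‖∑ i, (b i : ℂ) * l i + (b₀ : ℂ) * l₀‖ := by
  obtain ⟨-, hκ, -⟩ := coreKappa_facts N
  choose D hD hDle hint hσ using fun i => exists_data_of_height (hα i)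
  obtain ⟨D₀, hD₀, hD₀le, hint₀, hσ₀⟩ := exists_data_of_height hα₀
  set H := 2 * (N + 1) * (h * R) with hH
  set Dp := (∏ i, D i) * D₀ with hDp
  have hRH : h * R ≤ H := Nat.le_mul_of_pos_left _ (Nat.mul_pos two_pos (Nat.succ_pos N))
  have hhH : h ≤ H := (Nat.le_mul_of_pos_right h hR).trans hRH
  have hDpH : Dp ≤ 2 ^ H := by
    refine (Nat.mul_le_mul ((prod_le_pow_card _ _ _ fun i _ => hDle i).trans_eq
      (by rw [card_univ, Fintype.card_fin])) hD₀le).trans ?_
    rw [← pow_mul, ← pow_add]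
    refine Nat.pow_le_pow_right two_pos ?_
    have : 2 * h * N ≤ 2 * (h * R) * N :=
      Nat.mul_le_mul_right _ (Nat.mul_le_mul_left 2 (Nat.le_mul_of_pos_right h hR))
    have e : H = 2 * (h * R) * N + 2 * (h * R) := by rw [hH]; ring
    omega
  have hint' : ∀ i, IsIntegral ℤ ((Dp : K) * (Fin.snoc α α₀ : Fin (N + 1) → K) i) := by
    have hn : ∀ k : ℕ, IsIntegral ℤ (k : K) := fun k => isIntegral_natCast k
    refine Fin.lastCases ?_ fun i => ?_
    · rw [Fin.snoc_last, hDp, Nat.cast_mul, mul_assoc]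
      exact (hn _).mul hint₀
    · obtain ⟨c, hc⟩ : D i ∣ Dp := (dvd_prod_of_mem D (mem_univ i)).mul_right _
      rw [Fin.snoc_castSucc, hc, Nat.cast_mul, mul_right_comm]
      exact (hint i).mul (hn c)
  have hB := BakerExplicit.EffectiveThue.baker_algebraic_general hd (algebraMap K ℂ)
    (α := (Fin.snoc α α₀ : Fin (N + 1) → K)) (D := Dp)
    (Nat.mul_pos (prod_pos fun i _ => hD i) hD₀) hint' (h := H) (m := m + R) hDpH
    (Fin.lastCases (fun σ => by
      rw [Fin.snoc_last]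
      exact (hσ₀ σ).trans (pow_le_pow_right₀ one_le_two (by
        rw [hH]
        exact Nat.mul_le_mul_right _ (Nat.le_mul_of_pos_right 2 (Nat.succ_pos N))))) fun i σ => by
      rw [Fin.snoc_castSucc]
      exact (hσ i σ).trans (pow_le_pow_right₀ one_le_two (by
        rw [hH]; exact Nat.mul_le_mul (Nat.le_mul_of_pos_right 2 (Nat.succ_pos N))
          (Nat.le_mul_of_pos_right h hR))))
    (l := Fin.snoc l l₀) (Fin.lastCases (by simpa using hexp₀) fun i => by simpa using hexp i)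
    (Fin.lastCases (by simpa using hl₀.trans (Nat.cast_le.2 hRH)) fun i => by
      simpa using (hl i).trans (Nat.cast_le.2 hhH))
    (b := Fin.snoc b b₀) (Fin.lastCases (by
      simpa using hb₀m.trans (Nat.pow_le_pow_right two_pos (Nat.le_add_right m R))) fun i => by
      rw [Fin.snoc_castSucc, pow_add]
      exact (hb i).trans (Nat.mul_le_mul_left _ Nat.lt_two_pow_self.le))
    (by simpa [Fin.sum_univ_castSucc] using hne)
  simp only [Fin.sum_univ_castSucc, Fin.snoc_castSucc, Fin.snoc_last] at hB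
  refine le_trans (one_div_le_one_div_of_le (by positivity) (pow_le_pow_right₀ one_le_two ?_)) hB
  have hd1 : 1 ≤ d := le_trans finrank_pos hd
  refine (Nat.pow_le_pow_left ?_ _).trans ((Nat.pow_le_pow_right ?_ hκ).trans
    (Nat.le_mul_of_pos_left _ hR))
  · calc 2 ^ (4 * (N + 1) ^ 2 + 18) * d * (H + (m + R))
        ≤ 2 ^ (4 * (N + 1) ^ 2 + 18) * d *
            (2 * (N + 1) * (descThreshold N d + 1) * (h + m + 1)) := by
          refine Nat.mul_le_mul_left _ ?_
          have h1 : h * R ≤ (descThreshold N d + 1) * h := by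
            rw [mul_comm h]; exact Nat.mul_le_mul_right _ (hRt.trans (Nat.le_succ _))
          have h2 : 1 * m ≤ 2 * (N + 1) * (descThreshold N d + 1) * m :=
            Nat.mul_le_mul_right _ (Nat.mul_pos (Nat.mul_pos two_pos (Nat.succ_pos N))
              (Nat.succ_pos _))
          have h3 : H ≤ 2 * (N + 1) * (descThreshold N d + 1) * h := by
            rw [hH, mul_assoc _ (descThreshold N d + 1)]
            exact Nat.mul_le_mul_left _ h1
          have h4 : R ≤ 2 * (N + 1) * (descThreshold N d + 1) * 1 := by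
            rw [mul_one]
            exact (hRt.trans (Nat.le_succ _)).trans
              (Nat.le_mul_of_pos_left _ (Nat.mul_pos two_pos (Nat.succ_pos N)))
          rw [mul_add, mul_add]
          omega
      _ ≤ descConst N d * (h + m + 1) := by
          rw [← mul_assoc, descConst]
          exact Nat.mul_le_mul_right _ (Nat.le_add_left _ _)
  · refine Nat.mul_pos ?_ (Nat.succ_pos _)
    exact lt_of_lt_of_le (Nat.two_pow_pos _) (Nat.le_add_right _ _)

/-- A failed radical: the last number is a `q`-th power up to the others. -/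
theorem exists_root {n q : ℕ} (hq : q.Prime) {α : Fin (n + 1) → K} {α₀ : K}
    {l : Fin (n + 1) → ℂ} {l₀ : ℂ} (hexp : ∀ i, Complex.exp (l i) = algebraMap K ℂ (α i))
    (hexp₀ : Complex.exp l₀ = algebraMap K ℂ α₀)
    (hlast : l (Fin.last n) = 2 * π * Complex.I)
    (hfail : ∃ w ∈ adjoin K (Set.range fun i => Complex.exp (l i / q)),
      w ^ q = Complex.exp l₀) :
    ∃ (c : Fin (n + 1) → ℕ) (y : K), (∀ i, c i < q) ∧
      Complex.exp ((l₀ + ∑ i, (c i : ℂ) * l i) / q) = algebraMap K ℂ y ∧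
      y ^ q = α₀ * ∏ i, α i ^ c i := by
  classical
  obtain ⟨w, hwF, hw⟩ := hfail
  have hqC : (q : ℂ) ≠ 0 := Nat.cast_ne_zero.2 hq.ne_zero
  set β : Fin (n + 1) → ℂ := fun i => Complex.exp (l i / q) with hβ
  have hβq : ∀ i, β i ^ q = algebraMap K ℂ (α i) := fun i => by
    rw [hβ, ← Complex.exp_nat_mul, mul_div_cancel₀ _ hqC, hexp]
  set ζ := β (Fin.last n) with hζdef
  have hζ : IsPrimitiveRoot ζ q := by
    rw [hζdef, hβ]
    simp only [hlast]
    exact Complex.isPrimitiveRoot_exp q hq.ne_zero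
  set z := Complex.exp (l₀ / q) with hzdef
  have hzq : z ^ q = Complex.exp l₀ := by
    rw [hzdef, ← Complex.exp_nat_mul, mul_div_cancel₀ _ hqC]
  have : NeZero q := ⟨hq.ne_zero⟩
  have hw0 : w ≠ 0 := fun h => Complex.exp_ne_zero l₀ (by rw [← hw, h, zero_pow hq.ne_zero])
  obtain ⟨j₀, -, hj₀⟩ := hζ.eq_pow_of_pow_eq_one (show (z / w) ^ q = 1 by
    rw [div_pow, hzq, hw, div_self (Complex.exp_ne_zero _)])
  have hzF : z ∈ adjoin K (Set.range β) := by
    rw [← div_mul_cancel₀ z hw0, ← hj₀]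
    exact mul_mem (pow_mem (subset_adjoin K (Set.range β) (Set.mem_range_self (Fin.last n))) _) hwF
  set β' : Fin n → ℂ := fun i => β i.castSucc
  have hzF' : z ∈ adjoin K⟮ζ⟯ (β' '' ((univ : Finset (Fin n)) : Set (Fin n))) := by
    refine (adjoin_le_iff (T := (adjoin K⟮ζ⟯
      (β' '' ((univ : Finset (Fin n)) : Set (Fin n)))).restrictScalars K)).2 ?_ hzF
    rintro _ ⟨i, rfl⟩
    induction i using Fin.lastCases with
    | last =>
      rw [SetLike.mem_coe, mem_restrictScalars]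
      exact IntermediateField.algebraMap_mem
        (adjoin K⟮ζ⟯ (β' '' ((univ : Finset (Fin n)) : Set (Fin n))))
        (⟨ζ, mem_adjoin_simple_self K ζ⟩ : K⟮ζ⟯)
    | cast i =>
      rw [SetLike.mem_coe, mem_restrictScalars]
      exact subset_adjoin _ _ ⟨i, mem_coe.2 (mem_univ i), rfl⟩
  have hmem : ∀ x : K, algebraMap K ℂ x ∈ (algebraMap K⟮ζ⟯ ℂ).range := fun x =>
    ⟨algebraMap K _ x, (IsScalarTower.algebraMap_apply K _ ℂ x).symm⟩
  obtain ⟨c, hc, hcz⟩ := radicals_descent (F := K⟮ζ⟯) hq hζ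
    ⟨⟨ζ, mem_adjoin_simple_self K ζ⟩, rfl⟩ β' (fun i => (hβq i.castSucc) ▸ hmem _) univ z hzF'
    (hzq ▸ hexp₀ ▸ hmem _)
  obtain ⟨u, hu⟩ := hcz
  have hprod : (z * ∏ i, β' i ^ c i) ^ q ∈ (algebraMap K ℂ).range := by
    rw [mul_pow, hzq, hexp₀, ← prod_pow]
    refine Subring.mul_mem (algebraMap K ℂ).range ⟨α₀, rfl⟩ (Subring.prod_mem _ fun i _ => ?_)
    rw [← pow_mul, mul_comm, pow_mul, hβq]
    exact Subring.pow_mem (algebraMap K ℂ).range ⟨α i.castSucc, rfl⟩ _
  obtain ⟨j, hj, hjz⟩ := cyclotomic_step (F := K) hq hζ (hu ▸ u.2) hprod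
  obtain ⟨y, hy⟩ := hjz
  refine ⟨Fin.snoc c j, y, Fin.lastCases (by simpa using hj) fun i => by simpa using hc i, ?_, ?_⟩
  · rw [hy, Fin.sum_univ_castSucc, add_div, add_div, sum_div, Complex.exp_add, Complex.exp_add,
      Complex.exp_sum, ← mul_assoc]
    simp only [Fin.snoc_castSucc, Fin.snoc_last, mul_div_assoc, Complex.exp_nat_mul]
    rfl
  · refine (algebraMap K ℂ).injective ?_
    rw [map_pow, hy, mul_pow, mul_pow, hzq, hexp₀, map_mul, map_prod, Fin.prod_univ_castSucc,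
      ← prod_pow, mul_assoc, Fin.snoc_last]
    congr 1
    congr 1
    · refine prod_congr rfl fun i _ => ?_
      rw [Fin.snoc_castSucc, ← pow_mul, mul_comm, pow_mul, hβq, map_pow]
    · rw [← pow_mul, mul_comm, pow_mul, hζdef, hβq, map_pow]

set_option maxHeartbeats 400000 in
/-- **The theorem with `2 π i` among the logarithms**, by descent on `R`. -/
theorem bound_descent (hd : finrank ℚ K ≤ d) {n : ℕ} {α : Fin (n + 1) → K}
    {l : Fin (n + 1) → ℂ} (hexp : ∀ i, Complex.exp (l i) = algebraMap K ℂ (α i))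
    (hlast : l (Fin.last n) = 2 * π * Complex.I) (hα : ∀ i, Height.logHeight₁ (α i) ≤ h)
    (hl : ∀ i, ‖l i‖ ≤ h) : ∀ (R : ℕ), 1 ≤ R → ∀ (α₀ : K) (l₀ : ℂ),
    Complex.exp l₀ = algebraMap K ℂ α₀ → Height.logHeight₁ α₀ ≤ (h * R : ℕ) →
    ‖l₀‖ ≤ (h * R : ℕ) → ∀ (m : ℕ) (b : Fin (n + 1) → ℤ) (b₀ : ℤ),
    (∀ i, (b i).natAbs ≤ 2 ^ m * R) → b₀.natAbs ≤ 2 ^ m → b₀ ≠ 0 →
    ∑ i, (b i : ℂ) * l i + (b₀ : ℂ) * l₀ ≠ 0 →
    1 / (2 : ℝ) ^ (R * (descConst (n + 1) d * (h + m + 1)) ^ (2 * coreKappa (n + 1))) ≤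
      ‖∑ i, (b i : ℂ) * l i + (b₀ : ℂ) * l₀‖ := by
  intro R
  induction R using Nat.strong_induction_on with
  | _ R ih =>
    intro hR α₀ l₀ hexp₀ hα₀ hl₀ m b b₀ hb hb₀m hb₀ hne
    by_cases hRt : R ≤ descThreshold (n + 1) d
    · exact bound_small hd hR hRt hexp hexp₀ hα hα₀ hl hl₀ hb hb₀m hne
    push Not at hRt
    set κ := coreKappa (n + 1) with hκdef
    set G := descExp (n + 1) d with hG
    set X := h + m + 1 with hX
    set P := 2 ^ G * X with hPdef
    have hP1 : 2 ^ G ≤ P := Nat.le_mul_of_pos_right _ (Nat.succ_pos _)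
    obtain ⟨q, hq, hlq, hq2⟩ := Nat.exists_prime_lt_and_le_two_mul (side (n + 1) P)
      (pow_pos (lt_of_lt_of_le (Nat.two_pow_pos G) hP1) _).ne'
    have hP : 2 ^ baseExp (n + 1) d * (2 * h + m + 1) ≤ P := by
      refine le_trans (Nat.mul_le_mul_left _ (show 2 * h + m + 1 ≤ 2 * X by omega)) ?_
      rw [← mul_assoc, ← pow_succ]
      exact Nat.mul_le_mul_right _ (Nat.pow_le_pow_right two_pos (baseExp_le_descExp (n + 1) d))
    by_cases hfail : ∃ w ∈ adjoin K (Set.range fun i => Complex.exp (l i / q)),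
        w ^ q = Complex.exp l₀
    swap
    · obtain ⟨A⟩ := exists_numberData hexp hexp₀ hα hα₀
      push Not at hfail
      refine le_trans (one_div_le_one_div_of_le (by positivity) (pow_le_pow_right₀ one_le_two ?_))
        (lastHeight_core hd hR hP A (fun i => (hl i).trans
          (by exact_mod_cast (by omega : h ≤ 2 * h)))
          (hl₀.trans (Nat.cast_le.2 (Nat.mul_le_mul_right _ (by omega : h ≤ 2 * h)))) hb hb₀m hb₀ hq
          hlq hq2 hfail)
      refine Nat.mul_le_mul_left _ ((Nat.pow_le_pow_left ?_ _).trans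
        (Nat.pow_le_pow_right ?_ (Nat.le_mul_of_pos_left _ two_pos)))
      · exact Nat.mul_le_mul_right _ (Nat.le_add_right _ _)
      · exact Nat.mul_pos (lt_of_lt_of_le (Nat.two_pow_pos G) (Nat.le_add_right _ _))
          (Nat.succ_pos _)
    obtain ⟨c, y, hc, hy, hyq⟩ := exists_root hq hexp hexp₀ hlast hfail
    set R' := R / q + 1 + (n + 1) with hR'
    set e := (3 * (n + 1) + 3) * (G + X) + 2 with he
    set W := descGrowth (n + 1) d with hW
    set l' := (l₀ + ∑ i, (c i : ℂ) * l i) / q with hl'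
    have hqR : (0 : ℝ) < q := Nat.cast_pos.2 hq.pos
    have hRq : (R : ℝ) ≤ (q : ℝ) * ((R / q + 1 : ℕ) : ℝ) := by
      exact_mod_cast (Nat.lt_mul_div_succ R hq.pos).le
    have hdiv : ∀ {u : ℝ}, (q : ℝ) * u ≤ (h : ℝ) * R + ∑ i, (c i : ℝ) * h →
        u ≤ (h * R' : ℕ) := fun {u} hu => by
      refine le_of_mul_le_mul_left (hu.trans ?_) hqR
      have hs : ∑ i, (c i : ℝ) * h ≤ ((n + 1 : ℕ) : ℝ) * (q * h) := by
        refine (sum_le_card_nsmul _ _ ((q : ℝ) * h) fun i _ =>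
          mul_le_mul_of_nonneg_right (Nat.cast_le.2 (hc i).le) (Nat.cast_nonneg h)).trans_eq ?_
        rw [card_univ, Fintype.card_fin, nsmul_eq_mul]
      have h2 := mul_le_mul_of_nonneg_left hRq (Nat.cast_nonneg (α := ℝ) h)
      rw [hR', Nat.cast_mul, Nat.cast_add (R / q + 1) (n + 1)]
      calc (h : ℝ) * R + ∑ i, (c i : ℝ) * h
          ≤ (h : ℝ) * ((q : ℝ) * ((R / q + 1 : ℕ) : ℝ)) + ((n + 1 : ℕ) : ℝ) * (q * h) :=
            add_le_add h2 hs
        _ = _ := by ring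
    have hy_height : Height.logHeight₁ y ≤ (h * R' : ℕ) := hdiv <| by
      rw [← Height.logHeight₁_pow, hyq]
      refine (Height.logHeight₁_mul_le _ _).trans (add_le_add (hα₀.trans_eq (Nat.cast_mul h R))
        ((Height.logHeight₁_prod_le _ _).trans (sum_le_sum fun i _ => ?_)))
      rw [Height.logHeight₁_pow]
      exact mul_le_mul_of_nonneg_left (hα i) (Nat.cast_nonneg _)
    have hl'le : ‖l'‖ ≤ (h * R' : ℕ) := hdiv <| by
      rw [hl', norm_div, Complex.norm_natCast, mul_div_cancel₀ _ hqR.ne']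
      refine (norm_add_le _ _).trans (add_le_add (hl₀.trans_eq (Nat.cast_mul h R))
        ((norm_sum_le _ _).trans (sum_le_sum fun i _ => ?_)))
      rw [norm_mul, Complex.norm_natCast]
      exact mul_le_mul_of_nonneg_left (hl i) (Nat.cast_nonneg _)
    have hsum : ∑ i, ((b i - (c i : ℤ) * b₀ : ℤ) : ℂ) * l i + (((q : ℤ) * b₀ : ℤ) : ℂ) * l' =
        ∑ i, (b i : ℂ) * l i + (b₀ : ℂ) * l₀ := by
      have hqC : (q : ℂ) ≠ 0 := Nat.cast_ne_zero.2 hq.ne_zero
      rw [hl']
      push_cast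
      rw [mul_right_comm (q : ℂ), mul_div_cancel₀ _ hqC, add_mul, sum_mul, ← add_assoc,
        add_right_comm, ← sum_add_distrib, mul_comm l₀ (b₀ : ℂ)]
      congr 1
      exact sum_congr rfl fun i _ => by ring
    have hqe : q + 1 ≤ 2 ^ e := by
      have h1 : side (n + 1) P ≤ 2 ^ ((3 * (n + 1) + 3) * (G + X)) := by
        rw [side, mul_comm (3 * (n + 1) + 3), pow_mul]
        refine Nat.pow_le_pow_left ?_ _
        rw [hPdef, pow_add]
        exact Nat.mul_le_mul_left _ Nat.lt_two_pow_self.le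
      have h2 := Nat.one_le_two_pow (n := (3 * (n + 1) + 3) * (G + X))
      rw [he, pow_add]
      omega
    have hb₀' : ((q : ℤ) * b₀).natAbs ≤ 2 ^ (m + 2 * e) := by
      rw [Int.natAbs_mul, Int.natAbs_natCast, pow_add, mul_comm]
      refine Nat.mul_le_mul hb₀m (le_trans ?_ (Nat.pow_le_pow_right two_pos
        (show e ≤ 2 * e by omega)))
      omega
    have hbd : ∀ a k : ℤ, a.natAbs ≤ 2 ^ m * R → k.natAbs ≤ q →
        (a - k * b₀).natAbs ≤ 2 ^ (m + 2 * e) * R' := fun a k ha hk => by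
      refine (Int.natAbs_sub_le _ _).trans ?_
      rw [Int.natAbs_mul]
      have hR'q : R ≤ q * R' :=
        (Nat.lt_mul_div_succ R hq.pos).le.trans (Nat.mul_le_mul_left _ (Nat.le_add_right _ _))
      have hR'1 : 1 ≤ R' := by rw [hR', add_right_comm]; exact Nat.le_add_left 1 _
      calc a.natAbs + k.natAbs * b₀.natAbs ≤ 2 ^ m * (q * R') + q * R' * 2 ^ m :=
            Nat.add_le_add (ha.trans (Nat.mul_le_mul_left _ hR'q))
              (Nat.mul_le_mul (hk.trans (Nat.le_mul_of_pos_right _ hR'1)) hb₀m)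
        _ = 2 ^ m * (2 * q) * R' := by ring
        _ ≤ 2 ^ m * 2 ^ (2 * e) * R' := by
            refine Nat.mul_le_mul_right _ (Nat.mul_le_mul_left _ ?_)
            rw [two_mul e, pow_add]
            exact Nat.mul_le_mul (le_trans (Nat.succ_le_succ hq.pos) hqe) (by omega)
        _ = _ := by rw [← pow_add]
    have hX' : h + (m + 2 * e) + 1 ≤ W * X := by
      have hX1 : 1 ≤ X := Nat.succ_pos _
      have h1 := growth_le (n + 1) G hX1
      have hXe : h + (m + 2 * e) + 1 = X + 2 * ((3 * (n + 1) + 3) * (G + X) + 2) := by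
        rw [hX, he]; ring
      rw [hXe, hW, descGrowth, ← hG, mul_assoc 2]
      omega
    have hWq : 2 * W ^ (2 * κ) ≤ q :=
      (two_mul_growth_le hP1).trans hlq.le
    have hR'R : R' * W ^ (2 * κ) ≤ R := by
      have h1 : 2 * W ^ (2 * κ) * (R / q) ≤ R :=
        (Nat.mul_le_mul_right _ hWq).trans (Nat.mul_div_le R q)
      have h2 : 2 * (((n + 1) + 1) * W ^ (2 * κ)) ≤ R :=
        le_trans (le_of_eq (by rw [descThreshold, ← hW, ← hκdef]; ring)) hRt.le
      have h3 : 2 * (R' * W ^ (2 * κ)) =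
          2 * W ^ (2 * κ) * (R / q) + 2 * (((n + 1) + 1) * W ^ (2 * κ)) := by rw [hR']; ring
      omega
    have hW2 : 2 ≤ W ^ (2 * κ) := by
      refine le_trans ?_ (Nat.le_self_pow ?_ W)
      · rw [hW, descGrowth]
        exact Nat.le_mul_of_pos_right 2 (Nat.mul_pos (Nat.succ_pos _) (Nat.succ_pos _))
      · rw [hκdef, coreKappa]; omega
    have hR'1 : 1 ≤ R' := by rw [hR', add_right_comm]; exact Nat.le_add_left 1 _
    have hlt : R' < R := by
      have h1 : R' * 2 ≤ R := (Nat.mul_le_mul_left _ hW2).trans hR'R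
      omega
    have hrec := ih R' hlt hR'1 y l' hy hy_height hl'le (m + 2 * e)
      (fun i => b i - (c i : ℤ) * b₀) ((q : ℤ) * b₀) (fun i => hbd _ _ (hb i) (by
        simpa using (hc i).le)) hb₀'
      (mul_ne_zero (Int.natCast_ne_zero.2 hq.ne_zero) hb₀) (by rwa [hsum])
    rw [hsum] at hrec
    refine le_trans (one_div_le_one_div_of_le (by positivity) (pow_le_pow_right₀ one_le_two ?_))
      hrec
    calc R' * (descConst (n + 1) d * (h + (m + 2 * e) + 1)) ^ (2 * κ)
        ≤ R' * (W * (descConst (n + 1) d * X)) ^ (2 * κ) := by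
          refine Nat.mul_le_mul_left _ (Nat.pow_le_pow_left ?_ _)
          rw [mul_left_comm]
          exact Nat.mul_le_mul_left _ hX'
      _ = (R' * W ^ (2 * κ)) * (descConst (n + 1) d * X) ^ (2 * κ) := by rw [mul_pow]; ring
      _ ≤ _ := Nat.mul_le_mul_right _ hR'R

omit [Algebra K ℂ] in
/-- **Baker's theorem linear in the last height.** -/
theorem linear_form_bound (hd : finrank ℚ K ≤ d) (ψ : K →+* ℂ) {n R : ℕ} (hR : 1 ≤ R)
    {α : Fin n → K} {α₀ : K} (hα : ∀ i, Height.logHeight₁ (α i) ≤ h)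
    (hα₀ : Height.logHeight₁ α₀ ≤ (h * R : ℕ)) {l : Fin n → ℂ} {l₀ : ℂ}
    (hexp : ∀ i, Complex.exp (l i) = ψ (α i)) (hexp₀ : Complex.exp l₀ = ψ α₀)
    (hl : ∀ i, ‖l i‖ ≤ h) (hl₀ : ‖l₀‖ ≤ (h * R : ℕ)) {b : Fin n → ℤ} {b₀ : ℤ}
    (hb : ∀ i, (b i).natAbs ≤ 2 ^ m * R) (hb₀m : b₀.natAbs ≤ 2 ^ m) (hb₀ : b₀ ≠ 0)
    (hne : ∑ i, (b i : ℂ) * l i + (b₀ : ℂ) * l₀ ≠ 0) :
    1 / (2 : ℝ) ^ (R * (lastHeightConst n d * (h + m + 1)) ^ lastHeightKappa n) ≤
      ‖∑ i, (b i : ℂ) * l i + (b₀ : ℂ) * l₀‖ := by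
  let : Algebra K ℂ := ψ.toAlgebra
  have h7 : ‖(2 * π * Complex.I : ℂ)‖ ≤ ((h + 7 : ℕ) : ℝ) := by
    rw [norm_mul, norm_mul, Complex.norm_I, mul_one, Complex.norm_real, Real.norm_eq_abs,
      abs_of_pos Real.pi_pos, Complex.norm_ofNat, Nat.cast_add]
    push_cast
    linarith [Real.pi_lt_d2, (Nat.cast_nonneg h : (0 : ℝ) ≤ h)]
  have hh : (h : ℝ) ≤ ((h + 7 : ℕ) : ℝ) := Nat.cast_le.2 (Nat.le_add_right _ _)
  have hhR : ((h * R : ℕ) : ℝ) ≤ (((h + 7) * R : ℕ) : ℝ) :=
    Nat.cast_le.2 (Nat.mul_le_mul_right _ (Nat.le_add_right _ _))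
  have hsum : ∑ i, ((Fin.snoc b 0 : Fin (n + 1) → ℤ) i : ℂ) *
      (Fin.snoc l (2 * π * Complex.I) : Fin (n + 1) → ℂ) i + (b₀ : ℂ) * l₀ =
        ∑ i, (b i : ℂ) * l i + (b₀ : ℂ) * l₀ := by simp [Fin.sum_univ_castSucc]
  have hB := bound_descent (h := h + 7) hd (α := Fin.snoc α 1)
    (l := Fin.snoc l (2 * π * Complex.I))
    (Fin.lastCases (by simp [Complex.exp_two_pi_mul_I]) fun i => by
      simpa [RingHom.algebraMap_toAlgebra] using hexp i)
    (by simp) (Fin.lastCases (by simp [Height.logHeight₁_one]; positivity)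
      fun i => by simpa using (hα i).trans hh)
    (Fin.lastCases (by simpa using h7) fun i => by simpa using (hl i).trans hh) R hR α₀ l₀
    (by simpa [RingHom.algebraMap_toAlgebra] using hexp₀) (hα₀.trans hhR) (hl₀.trans hhR) m
    (Fin.snoc b 0) b₀ (Fin.lastCases (by simp) fun i => by simpa using hb i) hb₀m hb₀
    (by rwa [hsum])
  rw [hsum] at hB
  refine le_trans (one_div_le_one_div_of_le (by positivity) (pow_le_pow_right₀ one_le_two ?_)) hB
  refine Nat.mul_le_mul_left _ (Nat.pow_le_pow_left ?_ _)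
  rw [lastHeightConst, mul_comm 8, mul_assoc]
  exact Nat.mul_le_mul_left _ (by omega)

end FA.BakerLastHeight

end
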