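import Fermat.Agent.BakerLastHeight.Weights
import Fermat.Agent.BakerExplicit.AlgebraicSetup

/-!
# The functions of the sharpened method

A long box for the exponents of the numbers of small height and a short one for that of the last
number; the frequency `ω` is `μ` less the last exponent times `Λ / b₀`.
-/

set_option autoImplicit false

noncomputable section

namespace FA.BakerLastHeight

open Finset

variable {n L M : ℕ}

/-- The box of exponents. -/
abbrev Box (n L M : ℕ) : Type := (Fin n → Fin L) × Fin M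

/-- The coordinates. -/
def coordW (b : Fin n → ℤ) (b₀ : ℤ) (x : Box n L M) (i : Fin n) : ℤ :=
  b₀ * (x.1 i).val - b i * x.2.val

/-- The frequency in the coordinates. -/
def freqW (l : Fin n → ℂ) (b : Fin n → ℤ) (b₀ : ℤ) (x : Box n L M) : ℂ :=
  ∑ i, (coordW b b₀ x i : ℂ) * (l i / b₀)

/-- The logarithm of the product of powers. -/
def logW (l : Fin n → ℂ) (l₀ : ℂ) (x : Box n L M) : ℂ :=
  ∑ i, ((x.1 i).val : ℂ) * l i + (x.2.val : ℂ) * l₀

/-- A sum of exponentials. -/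
def expSum {X : Type*} [Fintype X] (c ν : X → ℂ) (z : ℂ) : ℂ :=
  ∑ x, c x * Complex.exp (ν x * z)

theorem freqW_eq {b₀ : ℤ} (hb₀ : b₀ ≠ 0) (l : Fin n → ℂ) (l₀ : ℂ) (b : Fin n → ℤ)
    (x : Box n L M) :
    freqW l b b₀ x =
      logW l l₀ x - (x.2.val : ℂ) * (∑ i, (b i : ℂ) * l i + (b₀ : ℂ) * l₀) / b₀ := by
  have hb : (b₀ : ℂ) ≠ 0 := Int.cast_ne_zero.2 hb₀
  rw [freqW, logW, mul_add, add_div, mul_sum, sum_div,
    show (x.2.val : ℂ) * ((b₀ : ℂ) * l₀) / b₀ = (x.2.val : ℂ) * l₀ by field_simp,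
    add_sub_add_right_eq_sub, ← sum_sub_distrib]
  refine sum_congr rfl fun i _ => ?_
  simp only [coordW]
  push_cast
  field_simp

theorem natAbs_coordW_le {b : Fin n → ℤ} {b₀ : ℤ} {m R : ℕ}
    (hb : ∀ i, (b i).natAbs ≤ 2 ^ m * R) (hb₀ : b₀.natAbs ≤ 2 ^ m) (hM : R * M ≤ L)
    (x : Box n L M) (i : Fin n) :
    (coordW b b₀ x i).natAbs ≤ 2 ^ (m + 1) * L := by
  rw [coordW, pow_succ]
  refine (Int.natAbs_sub_le _ _).trans ?_
  rw [Int.natAbs_mul, Int.natAbs_mul, Int.natAbs_natCast, Int.natAbs_natCast, mul_two, add_mul]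
  exact Nat.add_le_add (Nat.mul_le_mul hb₀ (x.1 i).isLt.le)
    ((Nat.mul_le_mul (hb i) x.2.isLt.le).trans
      ((mul_assoc _ _ _).le.trans (Nat.mul_le_mul_left _ hM)))

theorem norm_logW_le {l : Fin n → ℂ} {l₀ : ℂ} {g g₀ : ℕ} (hl : ∀ i, ‖l i‖ ≤ g)
    (hl₀ : ‖l₀‖ ≤ g₀) (x : Box n L M) :
    ‖logW l l₀ x‖ ≤ ((n * (L * g) + M * g₀ : ℕ) : ℝ) := by
  refine (norm_add_le _ _).trans ?_
  push_cast
  refine add_le_add ((norm_sum_le _ _).trans ((sum_le_card_nsmul _ _ ((L : ℝ) * g)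
    fun i _ => ?_).trans_eq ?_)) ?_
  · rw [norm_mul, Complex.norm_natCast]
    exact mul_le_mul (by exact_mod_cast (x.1 i).isLt.le) (hl i) (norm_nonneg _) (Nat.cast_nonneg _)
  · rw [card_univ, Fintype.card_fin, nsmul_eq_mul]
  · rw [norm_mul, Complex.norm_natCast]
    exact mul_le_mul (by exact_mod_cast x.2.isLt.le) hl₀ (norm_nonneg _) (Nat.cast_nonneg _)

theorem norm_sub_freqW_le {b₀ : ℤ} (hb₀ : b₀ ≠ 0) (l : Fin n → ℂ) (l₀ : ℂ) (b : Fin n → ℤ)
    (x : Box n L M) :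
    ‖logW l l₀ x - freqW l b b₀ x‖ ≤ M * ‖∑ i, (b i : ℂ) * l i + (b₀ : ℂ) * l₀‖ := by
  rw [freqW_eq hb₀ l l₀, sub_sub_cancel, norm_div, norm_mul, Complex.norm_natCast,
    Complex.norm_intCast]
  refine (div_le_self (by positivity) (by exact_mod_cast Int.one_le_abs hb₀)).trans ?_
  exact mul_le_mul_of_nonneg_right (by exact_mod_cast x.2.isLt.le) (norm_nonneg _)

section ExpSum

variable {X : Type*} [Fintype X] {c ν : X → ℂ}

theorem differentiable_expSum (c ν : X → ℂ) : Differentiable ℂ (expSum c ν) := by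
  unfold expSum
  fun_prop

theorem iteratedDeriv_expSum (c ν : X → ℂ) (r : ℕ) (z : ℂ) :
    iteratedDeriv r (expSum c ν) z = expSum (fun x => c x * ν x ^ r) ν z := by
  unfold expSum
  rw [iteratedDeriv_fun_sum fun x _ => by fun_prop]
  simp only [iteratedDeriv_const_mul_field, iteratedDeriv_cexp_const_mul, mul_assoc]

/-- The size of an exponential sum. -/
theorem norm_expSum_le {U Ω ρ : ℕ} (hc : ∀ x, (Fintype.card X : ℝ) * ‖c x‖ ≤ (2 : ℝ) ^ U)
    (hν : ∀ x, ‖ν x‖ ≤ Ω) {z : ℂ} (hz : ‖z‖ ≤ ρ) :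
    ‖expSum c ν z‖ ≤ (2 : ℝ) ^ (U + 2 * (Ω * ρ)) := by
  rcases Nat.eq_zero_or_pos (Fintype.card X) with h0 | h0
  · have : IsEmpty X := Fintype.card_eq_zero_iff.1 h0
    simp [expSum]
  refine (norm_sum_le _ _).trans ((sum_le_card_nsmul _ _
    ((2 : ℝ) ^ (U + 2 * (Ω * ρ)) / Fintype.card X) fun x _ => ?_).trans_eq ?_)
  · rw [le_div_iff₀ (Nat.cast_pos.2 h0), norm_mul, pow_add, mul_comm, ← mul_assoc]
    refine mul_le_mul (hc x) (BakerExplicit.Algebraic.norm_exp_le_two_pow ?_) (norm_nonneg _)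
      (by positivity)
    rw [norm_mul, Nat.cast_mul]
    exact mul_le_mul (hν x) hz (norm_nonneg _) (Nat.cast_nonneg _)
  · rw [card_univ, nsmul_eq_mul, mul_div_cancel₀ _ (Nat.cast_ne_zero.2 h0.ne')]

/-- Exponential sums with close frequencies are close. -/
theorem norm_expSum_sub_le {U Ω σ : ℕ} (hc : ∀ x, (Fintype.card X : ℝ) * ‖c x‖ ≤ (2 : ℝ) ^ U)
    {μ : X → ℂ} (hμ : ∀ x, ‖μ x‖ ≤ Ω) {ε : ℝ} (hε0 : 0 ≤ ε)
    (hd : ∀ x, ‖μ x - ν x‖ ≤ ε)
    (hε : (σ : ℝ) * ε ≤ 1) {z : ℂ} (hz : ‖z‖ ≤ σ) :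
    ‖expSum c ν z - expSum c μ z‖ ≤ (2 : ℝ) ^ (U + 2 * (Ω * σ) + 1) * ((σ : ℝ) * ε) := by
  rcases Nat.eq_zero_or_pos (Fintype.card X) with h0 | h0
  · have : IsEmpty X := Fintype.card_eq_zero_iff.1 h0
    simp [expSum, Finset.univ_eq_empty]
    positivity
  rw [expSum, expSum, ← sum_sub_distrib]
  refine (norm_sum_le _ _).trans ((sum_le_card_nsmul _ _
    ((2 : ℝ) ^ (U + 2 * (Ω * σ) + 1) * ((σ : ℝ) * ε) / Fintype.card X) fun x _ => ?_).trans_eq ?_)
  · set δ := (ν x - μ x) * z with hδ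
    have hδle : ‖δ‖ ≤ (σ : ℝ) * ε := by
      rw [hδ, norm_mul, norm_sub_rev, mul_comm]
      exact mul_le_mul hz (hd x) (norm_nonneg _) (Nat.cast_nonneg _)
    have e : c x * Complex.exp (ν x * z) - c x * Complex.exp (μ x * z) =
        c x * (Complex.exp (μ x * z) * (Complex.exp δ - 1)) := by
      rw [mul_sub, mul_one, ← Complex.exp_add, hδ, show μ x * z + (ν x - μ x) * z = ν x * z by
        ring, mul_sub]
    rw [e, le_div_iff₀ (Nat.cast_pos.2 h0), norm_mul, norm_mul, pow_succ, pow_add, mul_comm,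
      ← mul_assoc]
    refine (mul_le_mul (hc x) (mul_le_mul (BakerExplicit.Algebraic.norm_exp_le_two_pow
        (z := μ x * z) (k := Ω * σ) ?_)
      ((Complex.norm_exp_sub_one_le (hδle.trans hε)).trans
        (mul_le_mul_of_nonneg_left hδle two_pos.le)) (norm_nonneg _) (by positivity))
      (mul_nonneg (norm_nonneg _) (norm_nonneg _)) (by positivity)).trans_eq (by ring)
    rw [norm_mul, Nat.cast_mul]
    exact mul_le_mul (hμ x) hz (norm_nonneg _) (Nat.cast_nonneg _)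
  · rw [card_univ, nsmul_eq_mul, mul_div_cancel₀ _ (Nat.cast_ne_zero.2 h0.ne')]

end ExpSum

theorem pow_le_factorial_mul_two_pow {x : ℝ} (hx : 0 ≤ x) {Ω : ℕ} (hΩ : x ≤ Ω) (r : ℕ) :
    x ^ r ≤ (r.factorial : ℝ) * (2 : ℝ) ^ (2 * Ω) := by
  have h := Real.pow_div_factorial_le_exp x hx r
  rw [div_le_iff₀ (by exact_mod_cast r.factorial_pos), mul_comm] at h
  exact h.trans (mul_le_mul_of_nonneg_left ((Real.exp_le_exp.2 hΩ).trans
    (BakerExplicit.exp_natCast_le_two_pow Ω)) (Nat.cast_nonneg _))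

/-- **The derivatives vanish exactly on the algebraic values.** -/
theorem expSum_deriv_eq_zero (l : Fin n → ℂ) (l₀ : ℂ) (b : Fin n → ℤ) (b₀ : ℤ)
    {p : Box n L M → ℤ} {T : ℕ} {z : ℂ}
    (h : ∀ t : Fin n → ℕ, ∑ i, t i < T →
      expSum (fun x => ((p x * weightBinom (coordW b b₀ x) t : ℤ) : ℂ)) (logW l l₀) z = 0)
    {t : Fin n → ℕ} {r : ℕ} (htr : ∑ i, t i + r < T) :
    expSum (fun x => ((p x * weightBinom (coordW b b₀ x) t : ℤ) : ℂ) * freqW l b b₀ x ^ r)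
      (logW l l₀) z = 0 := by
  classical
  set c : Box n L M → ℂ := fun x => (p x : ℂ) * Complex.exp (logW l l₀ x * z)
  have hc : ∀ t' : Fin n → ℕ, ∑ i, t' i < T →
      ∑ x ∈ univ, c x * (weightBinom (coordW b b₀ x) t' : ℂ) = 0 := fun t' ht' => by
    refine Eq.trans (sum_congr rfl fun x _ => ?_) (h t' ht')
    simp only [c]
    push_cast
    ring
  have key : ∀ g : Fin r → Fin n, ∑ x, c x * (weightBinom (coordW b b₀ x) t : ℂ) *
      ∏ j, ((coordW b b₀ x (g j) : ℂ) + (0 : ℂ)) = 0 := fun g =>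
    sum_weightBinom_prod_eq_zero hc g (fun _ => 0) univ t (by simpa using htr)
  have e : ∀ x : Box n L M, freqW l b b₀ x ^ r =
      ∑ g : Fin r → Fin n, (∏ j, l (g j) / b₀) * ∏ j, (coordW b b₀ x (g j) : ℂ) := fun x => by
    rw [freqW, Fintype.sum_pow]
    exact sum_congr rfl fun g _ => by rw [prod_mul_distrib, mul_comm]
  calc expSum _ (logW l l₀) z
      = ∑ g : Fin r → Fin n, (∏ j, l (g j) / b₀) * ∑ x, c x *
          (weightBinom (coordW b b₀ x) t : ℂ) * ∏ j, ((coordW b b₀ x (g j) : ℂ) + (0 : ℂ)) := by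
        simp only [expSum, mul_sum]
        rw [sum_comm]
        refine sum_congr rfl fun x _ => ?_
        rw [e, mul_sum, sum_mul]
        refine sum_congr rfl fun g _ => ?_
        simp only [c, add_zero]
        push_cast
        ring
    _ = 0 := sum_eq_zero fun g _ => by rw [key, mul_zero]

end FA.BakerLastHeight

end
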