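import Fermat.Agent.BakerLastHeight.Setup
import Fermat.Agent.BakerExplicit.AlgebraicMain

/-!
# Algebraic values and their smallness

A value of the functions at a point where the exponentials are algebraic is zero or not too small,
and is small once the derivatives vanish on the algebraic side at enough integers.
-/

set_option autoImplicit false
set_option linter.unusedSectionVars false

noncomputable section

namespace FA.BakerLastHeight

open Finset NumberField Module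

variable {K : Type*} [Field K] [NumberField K] {n L M : ℕ}

/-- The exponential of a box point as an integer, cleared of denominators. -/
def intWeight (A : Fin n → 𝓞 K) (A₀ : 𝓞 K) (D : Fin n → ℕ) (D₀ k : ℕ) (x : Box n L M) : 𝓞 K :=
  (∏ i, A i ^ ((x.1 i).val * k) * (D i : 𝓞 K) ^ ((L - (x.1 i).val) * k)) *
    (A₀ ^ (x.2.val * k) * (D₀ : 𝓞 K) ^ ((M - x.2.val) * k))

/-- Everything a value needs about the numbers. -/
structure NumberData (ψ : K →+* ℂ) (l : Fin n → ℂ) (l₀ : ℂ) (g g₀ : ℕ) where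
  int : Fin n → 𝓞 K
  den : Fin n → ℕ
  int₀ : 𝓞 K
  den₀ : ℕ
  den_pos : ∀ i, 0 < den i
  den₀_pos : 0 < den₀
  den_le : ∀ i, den i ≤ 2 ^ g
  den₀_le : den₀ ≤ 2 ^ g₀
  map_int : ∀ i, ψ (int i : K) = den i * Complex.exp (l i)
  map_int₀ : ψ (int₀ : K) = den₀ * Complex.exp l₀
  int_le : ∀ i (σ : K →+* ℂ), ‖σ (int i : K)‖ ≤ (2 : ℝ) ^ (2 * g)
  int₀_le : ∀ σ : K →+* ℂ, ‖σ (int₀ : K)‖ ≤ (2 : ℝ) ^ (2 * g₀)

variable {ψ : K →+* ℂ} {l : Fin n → ℂ} {l₀ : ℂ} {g g₀ : ℕ}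

theorem map_intWeight (A : NumberData ψ l l₀ g g₀) (k : ℕ) (x : Box n L M) :
    ψ (intWeight A.int A.int₀ A.den A.den₀ k x : K) =
      (((∏ i, A.den i ^ (L * k)) * A.den₀ ^ (M * k) : ℕ) : ℂ) *
        Complex.exp (logW l l₀ x * k) := by
  simp only [intWeight, map_mul, map_prod, map_pow, map_natCast, A.map_int, A.map_int₀]
  rw [logW, add_mul, sum_mul, Complex.exp_add, Complex.exp_sum]
  push_cast
  rw [mul_mul_mul_comm, ← prod_mul_distrib]
  congr 1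
  · refine prod_congr rfl fun i _ => ?_
    rw [mul_pow, mul_right_comm, ← pow_add, ← add_mul, Nat.add_sub_cancel' (x.1 i).isLt.le,
      ← Complex.exp_nat_mul]
    congr 2
    push_cast
    ring
  · rw [mul_pow, mul_right_comm, ← pow_add, ← add_mul, Nat.add_sub_cancel' x.2.isLt.le,
      ← Complex.exp_nat_mul]
    congr 2
    push_cast
    ring

theorem norm_intWeight_le (A : NumberData ψ l l₀ g g₀) {Ω : ℕ}
    (hΩ : n * (L * g) + M * g₀ ≤ Ω) (k : ℕ) (x : Box n L M) (σ : K →+* ℂ) :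
    ‖σ (intWeight A.int A.int₀ A.den A.den₀ k x : K)‖ ≤ (2 : ℝ) ^ (2 * (Ω * k)) := by
  have key : ∀ {a : 𝓞 K} {D e : ℕ} {N : ℕ}, ‖σ (a : K)‖ ≤ (2 : ℝ) ^ (2 * e) → D ≤ 2 ^ e →
      ∀ j ≤ N, ‖σ (a : K)‖ ^ (j * k) * (D : ℝ) ^ ((N - j) * k) ≤ (2 : ℝ) ^ (2 * (N * e * k)) := by
    intro a D e N ha hD j hj
    have hDR : (D : ℝ) ≤ (2 : ℝ) ^ (2 * e) :=
      le_trans (by exact_mod_cast hD) (pow_le_pow_right₀ one_le_two (by omega))
    refine (mul_le_mul (pow_le_pow_left₀ (norm_nonneg _) ha _)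
      (pow_le_pow_left₀ (Nat.cast_nonneg _) hDR _) (by positivity) (by positivity)).trans_eq ?_
    rw [← pow_add, ← add_mul, Nat.add_sub_cancel' hj, ← pow_mul]
    congr 1
    ring
  simp only [intWeight, map_mul, map_prod, map_pow, map_natCast, norm_mul, norm_prod, norm_pow,
    Complex.norm_natCast]
  refine (mul_le_mul ((prod_le_prod (fun i _ => by positivity) fun i _ =>
    key (A.int_le i σ) (A.den_le i) _ (x.1 i).isLt.le).trans_eq (prod_const _))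
    (key (A.int₀_le σ) A.den₀_le _ x.2.isLt.le) (by positivity) (by positivity)).trans ?_
  rw [card_univ, Fintype.card_fin, ← pow_mul, ← pow_add]
  refine pow_le_pow_right₀ one_le_two ?_
  calc 2 * (L * g * k) * n + 2 * (M * g₀ * k) = 2 * ((n * (L * g) + M * g₀) * k) := by ring
    _ ≤ _ := Nat.mul_le_mul_left 2 (Nat.mul_le_mul_right k hΩ)

theorem den_le_two_pow (A : NumberData ψ l l₀ g g₀) {Ω : ℕ}
    (hΩ : n * (L * g) + M * g₀ ≤ Ω) (k : ℕ) :
    (∏ i, A.den i ^ (L * k)) * A.den₀ ^ (M * k) ≤ 2 ^ (Ω * k) := by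
  refine (Nat.mul_le_mul ((prod_le_prod' fun i _ => Nat.pow_le_pow_left (A.den_le i) _).trans_eq
    (prod_const _)) (Nat.pow_le_pow_left A.den₀_le _)).trans ?_
  rw [card_univ, Fintype.card_fin, ← pow_mul, ← pow_mul, ← pow_mul, ← pow_add]
  refine Nat.pow_le_pow_right two_pos ?_
  calc g * (L * k * n) + g₀ * (M * k) = (n * (L * g) + M * g₀) * k := by ring
    _ ≤ _ := Nat.mul_le_mul_right k hΩ

/-- **A value is zero or not too small.** -/
theorem value_eq_zero_or_ge (A : NumberData ψ l l₀ g g₀) {d U Ω : ℕ} (hd : finrank ℚ K ≤ d)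
    (hΩ : n * (L * g) + M * g₀ ≤ Ω) {c : Box n L M → ℤ}
    (hc : ∀ x, (Fintype.card (Box n L M) : ℝ) * ‖(c x : ℂ)‖ ≤ (2 : ℝ) ^ U) (k : ℕ) :
    expSum (fun x => (c x : ℂ)) (logW l l₀) k = 0 ∨
      1 / (2 : ℝ) ^ (Ω * k + d * (U + 2 * (Ω * k))) ≤
        ‖expSum (fun x => (c x : ℂ)) (logW l l₀) k‖ := by
  classical
  set v := expSum (fun x => (c x : ℂ)) (logW l l₀) k with hv
  set N := (∏ i, A.den i ^ (L * k)) * A.den₀ ^ (M * k) with hN
  set X : 𝓞 K := ∑ x, (c x : 𝓞 K) * intWeight A.int A.int₀ A.den A.den₀ k x with hX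
  have hψ : ψ (X : K) = (N : ℂ) * v := by
    simp only [hX, hv, expSum, map_sum, map_mul, map_intCast, map_intWeight, mul_sum]
    exact sum_congr rfl fun x _ => mul_left_comm _ _ _
  rcases eq_or_ne X 0 with h0 | h0
  · left
    rw [h0, RingOfIntegers.coe_eq_algebraMap, map_zero, map_zero, eq_comm, mul_eq_zero] at hψ
    refine hψ.resolve_left (Nat.cast_ne_zero.2 (Nat.pos_iff_ne_zero.1 ?_))
    exact Nat.mul_pos (prod_pos fun i _ => pow_pos (A.den_pos i) _) (pow_pos A.den₀_pos _)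
  right
  have hone := GelfondSchneider.one_le_norm_mul_house_pow h0 ψ
  have hhouse : house (X : K) ≤ (2 : ℝ) ^ (U + 2 * (Ω * k)) := by
    refine BakerExplicit.Algebraic.house_le_of_forall (by positivity) fun τ => ?_
    rcases Nat.eq_zero_or_pos (Fintype.card (Box n L M)) with hc0 | hc0
    · have := Fintype.card_eq_zero_iff.1 hc0
      simp [hX]
    simp only [hX, map_sum, map_mul, map_intCast]
    refine (norm_sum_le _ _).trans ((sum_le_card_nsmul _ _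
      ((2 : ℝ) ^ (U + 2 * (Ω * k)) / Fintype.card (Box n L M)) fun x _ => ?_).trans_eq ?_)
    · rw [le_div_iff₀ (Nat.cast_pos.2 hc0), norm_mul, pow_add, mul_comm, ← mul_assoc]
      exact mul_le_mul (hc x) (norm_intWeight_le A hΩ k x τ) (norm_nonneg _) (by positivity)
    · rw [card_univ, nsmul_eq_mul, mul_div_cancel₀ _ (Nat.cast_ne_zero.2 hc0.ne')]
  rw [hψ, norm_mul, Complex.norm_natCast] at hone
  rw [div_le_iff₀ (by positivity), pow_add, mul_comm d, pow_mul]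
  calc (1 : ℝ) ≤ (N : ℝ) * ‖v‖ * house (X : K) ^ (finrank ℚ K - 1) := hone
    _ ≤ (2 : ℝ) ^ (Ω * k) * ‖v‖ * ((2 : ℝ) ^ (U + 2 * (Ω * k))) ^ d := by
        refine mul_le_mul (mul_le_mul_of_nonneg_right
          (by exact_mod_cast den_le_two_pow A hΩ k) (norm_nonneg _)) ?_
          (pow_nonneg (house_nonneg _) _) (by positivity)
        exact (pow_le_pow_left₀ (house_nonneg _) hhouse _).trans
          (pow_le_pow_right₀ (one_le_pow₀ one_le_two) (by omega))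
    _ = _ := by ring

/-- The constants of the interpolation. -/
theorem interp_const_le {m ρ σ T' T₀ B : ℕ} (hm : m ≤ σ) (hρ : ρ ≤ σ) (hT : T' ≤ T₀)
    (hσB : σ ≤ 2 ^ B) :
    m * (16 * 2 ^ m) ^ T' * (17 * ρ) ^ ((m + 1) * T') ≤
      2 ^ (σ + (4 + σ) * T₀ + (5 + B) * ((σ + 1) * T₀)) := by
  rw [pow_add, pow_add 2 σ]
  refine Nat.mul_le_mul (Nat.mul_le_mul (hm.trans Nat.lt_two_pow_self.le) ?_) ?_
  · refine (Nat.pow_le_pow_right (Nat.mul_pos (by norm_num) (Nat.two_pow_pos _)) hT).trans ?_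
    rw [pow_mul, pow_add]
    exact Nat.pow_le_pow_left (Nat.mul_le_mul (by norm_num) (Nat.pow_le_pow_right two_pos hm)) _
  · rw [pow_mul 2 (5 + B)]
    rcases Nat.eq_zero_or_pos ρ with rfl | hρ0
    · rcases Nat.eq_zero_or_pos ((m + 1) * T') with h | h
      · rw [h, pow_zero]
        exact Nat.one_le_pow _ _ (Nat.two_pow_pos _)
      · rw [mul_zero, zero_pow h.ne']
        exact Nat.zero_le _
    refine (Nat.pow_le_pow_right (Nat.mul_pos (by norm_num) hρ0)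
      (Nat.mul_le_mul (Nat.succ_le_succ hm) hT)).trans (Nat.pow_le_pow_left ?_ _)
    rw [pow_add]
    exact Nat.mul_le_mul (by norm_num) (hρ.trans hσB)

/-- **The extrapolation**: a value is small once the derivatives vanish on the algebraic side at
the first `m` integers. -/
theorem small_value {l : Fin n → ℂ} {l₀ : ℂ} {b : Fin n → ℤ} {b₀ : ℤ} (hb₀ : b₀ ≠ 0)
    {c : Box n L M → ℂ} {Ω : ℕ} (hμ : ∀ x : Box n L M, ‖logW l l₀ x‖ ≤ Ω)
    (hν : ∀ x : Box n L M, ‖freqW l b b₀ x‖ ≤ Ω) {U Y E σ w m ρ T' : ℕ}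
    (hc : ∀ x, (Fintype.card (Box n L M) : ℝ) * ‖c x‖ ≤ (2 : ℝ) ^ U)
    (hnode : ∀ k < m, ∀ r < T',
      expSum (fun x => c x * freqW l b b₀ x ^ r) (logW l l₀) k = 0)
    (hΛ : ‖∑ i, (b i : ℂ) * l i + (b₀ : ℂ) * l₀‖ ≤ 1 / (2 : ℝ) ^ Y)
    (hmρ : m ≤ ρ) (hρσ : ρ ≤ σ) (hρ1 : 1 ≤ ρ)
    (hw : m * (16 * 2 ^ m) ^ T' * (17 * ρ) ^ ((m + 1) * T') ≤ 2 ^ w)
    (hloss : U + 2 * (Ω * σ) + 1 + (σ + M) + 2 * Ω + w + 1 + E + 2 ≤ Y)
    (hgain : U + 2 * (Ω * (16 * ρ)) + E + 2 ≤ 2 * (m * T')) {z : ℂ} (hz : ‖z‖ ≤ ρ) :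
    ‖expSum c (logW l l₀) z‖ < 1 / (2 : ℝ) ^ E := by
  classical
  set Λ := ∑ i, (b i : ℂ) * l i + (b₀ : ℂ) * l₀
  set V := U + 2 * (Ω * σ) + 1 + (σ + M) with hV
  set ε := (M : ℝ) * ‖Λ‖ with hεdef
  have hsmallε : (σ : ℝ) * ε ≤ (2 : ℝ) ^ (σ + M) / 2 ^ Y := by
    rw [hεdef, ← mul_assoc, pow_add, div_eq_mul_one_div]
    exact mul_le_mul (mul_le_mul (by exact_mod_cast Nat.lt_two_pow_self.le)
      (by exact_mod_cast Nat.lt_two_pow_self.le) (Nat.cast_nonneg _) (by positivity)) hΛ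
      (norm_nonneg _) (by positivity)
  have hε1 : (σ : ℝ) * ε ≤ 1 := hsmallε.trans ((div_le_one (by positivity)).2
    (pow_le_pow_right₀ one_le_two (by omega)))
  have hclose : ∀ (c' : Box n L M → ℂ) (U' : ℕ),
      (∀ x, (Fintype.card (Box n L M) : ℝ) * ‖c' x‖ ≤ (2 : ℝ) ^ U') → ∀ y : ℂ, ‖y‖ ≤ σ →
      ‖expSum c' (freqW l b b₀) y - expSum c' (logW l l₀) y‖ ≤
        (2 : ℝ) ^ (U' + 2 * (Ω * σ) + 1 + (σ + M)) / 2 ^ Y := fun c' U' hc' y hy => by
    refine (norm_expSum_sub_le hc' hμ (by positivity) (norm_sub_freqW_le hb₀ l l₀ b) hε1 hy).trans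
      ((mul_le_mul_of_nonneg_left hsmallε (by positivity)).trans_eq ?_)
    rw [← mul_div_assoc, ← pow_add]
  set δ := (2 : ℝ) ^ (V + 2 * Ω) / 2 ^ Y
  have hsmall : ∀ k < m, ∀ r < T',
      ‖iteratedDeriv r (expSum c (freqW l b b₀)) (k : ℂ)‖ ≤ r.factorial * δ := fun k hk r hr => by
    have hr0 : (0 : ℝ) < r.factorial := Nat.cast_pos.2 r.factorial_pos
    set c' : Box n L M → ℂ := fun x => c x * freqW l b b₀ x ^ r / (r.factorial : ℂ)
    have hc' : ∀ x, (Fintype.card (Box n L M) : ℝ) * ‖c' x‖ ≤ (2 : ℝ) ^ (U + 2 * Ω) := fun x => by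
      simp only [c', norm_div, norm_mul, norm_pow, Complex.norm_natCast]
      rw [← mul_div_assoc, div_le_iff₀ hr0, ← mul_assoc, pow_add, mul_assoc ((2 : ℝ) ^ U)]
      refine mul_le_mul (hc x) ?_ (by positivity) (by positivity)
      rw [mul_comm _ (r.factorial : ℝ)]
      exact pow_le_factorial_mul_two_pow (norm_nonneg _) (hν x) r
    have e : ∀ ν : Box n L M → ℂ, expSum (fun x => c x * freqW l b b₀ x ^ r) ν (k : ℂ) =
        (r.factorial : ℂ) * expSum c' ν k := fun ν => by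
      simp only [expSum, mul_sum, c']
      refine sum_congr rfl fun x _ => ?_
      rw [← mul_assoc, mul_div_cancel₀ _ (Nat.cast_ne_zero.2 r.factorial_ne_zero)]
    have h0 : expSum c' (logW l l₀) k = 0 := by
      have h1 := hnode k hk r hr
      rw [e, mul_eq_zero] at h1
      exact h1.resolve_left (Nat.cast_ne_zero.2 r.factorial_ne_zero)
    have h2 := hclose c' _ hc' k (by
      rw [Complex.norm_natCast]; exact_mod_cast (hk.le.trans hmρ).trans hρσ)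
    rw [h0, sub_zero] at h2
    rw [iteratedDeriv_expSum, e, norm_mul, Complex.norm_natCast]
    refine mul_le_mul_of_nonneg_left (h2.trans_eq ?_) hr0.le
    simp only [δ, hV]
    ring_nf
  have hbound : ∀ y : ℂ, ‖y‖ ≤ 16 * (ρ : ℝ) →
      ‖expSum c (freqW l b b₀) y‖ ≤ (2 : ℝ) ^ (U + 2 * (Ω * (16 * ρ))) := fun y hy =>
    norm_expSum_le hc hν (by exact_mod_cast hy)
  have hs := BakerExplicit.norm_le_schwarz (differentiable_expSum c (freqW l b b₀))
    (by exact_mod_cast hmρ) (by exact_mod_cast hρ1) (show (0 : ℝ) ≤ δ by positivity) hsmall hbound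
    hz
  have hW : δ * ((m : ℝ) * (16 * 2 ^ m) ^ T') * (17 * (ρ : ℝ)) ^ ((m + 1) * T') ≤
      (2 : ℝ) ^ (V + 2 * Ω + w) / 2 ^ Y := by
    rw [mul_assoc δ, pow_add (2 : ℝ) (V + 2 * Ω), mul_div_right_comm]
    exact mul_le_mul_of_nonneg_left (by exact_mod_cast hw) (by positivity)
  have h1 := hclose c U hc z (hz.trans (by exact_mod_cast hρσ))
  have h2 := norm_le_norm_add_norm_sub' (expSum c (logW l l₀) z) (expSum c (freqW l b b₀) z)
  rw [norm_sub_rev] at h2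
  have hq : ∀ {y Z : ℕ}, y + E + 2 ≤ Z → (2 : ℝ) ^ y / 2 ^ Z ≤ 1 / 2 ^ E / 4 := fun {y Z} h => by
    rw [div_div, div_le_div_iff₀ (by positivity) (by positivity), one_mul]
    calc (2 : ℝ) ^ y * (2 ^ E * 4) = 2 ^ (y + E + 2) := by rw [pow_add, pow_add]; ring
      _ ≤ _ := pow_le_pow_right₀ one_le_two h
  have a1 : 2 * ((2 : ℝ) ^ (V + 2 * Ω + w) / 2 ^ Y) ≤ 1 / 2 ^ E / 4 := by
    refine le_trans (le_of_eq ?_) (hq (y := V + 2 * Ω + w + 1) (Z := Y) (by omega))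
    rw [pow_succ]; ring
  have a2 : (2 : ℝ) ^ V / 2 ^ Y ≤ 1 / 2 ^ E / 4 := hq (by omega)
  have a3 : (2 : ℝ) ^ (U + 2 * (Ω * (16 * ρ))) / 4 ^ (m * T') ≤ 1 / 2 ^ E / 4 := by
    refine le_trans (le_of_eq ?_) (hq (y := U + 2 * (Ω * (16 * ρ))) (Z := 2 * (m * T'))
      (by omega))
    rw [pow_mul (2 : ℝ) 2]
    norm_num
  have hpos : (0 : ℝ) < 1 / 2 ^ E := by positivity
  linarith

end FA.BakerLastHeight

end
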