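import Mathlib.RingTheory.Binomial
import Mathlib.Data.Nat.Choose.Bounds
import Mathlib.Algebra.BigOperators.Fin
import Mathlib.Data.Int.NatAbs
import Mathlib.Tactic.LinearCombination
import Mathlib.Tactic.Ring
import Mathlib.Tactic.Linarith

/-!
# Binomial weights

Products of binomial coefficients of the coordinates replace the monomials in Baker's method:
their size does not grow with the box, and vanishing against them up to an order is vanishing
against all polynomials of that degree.
-/

set_option autoImplicit false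

noncomputable section

namespace FA.BakerLastHeight

open Finset

variable {n : ℕ}

/-- The product of the binomial coefficients. -/
def weightBinom (w : Fin n → ℤ) (t : Fin n → ℕ) : ℤ := ∏ i, Ring.choose (w i) (t i)

theorem succ_mul_choose (w : ℤ) (t : ℕ) :
    ((t : ℤ) + 1) * Ring.choose w (t + 1) = (w - t) * Ring.choose w t := by
  have h1 := Ring.descPochhammer_eq_factorial_smul_choose w (t + 1)
  have h2 := Ring.descPochhammer_eq_factorial_smul_choose w t
  rw [descPochhammer_succ_right, Polynomial.smeval_mul, h2] at h1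
  simp only [Polynomial.smeval_sub, Polynomial.smeval_X, Polynomial.smeval_natCast, pow_one,
    pow_zero, nsmul_eq_mul, mul_one, Nat.factorial_succ, Nat.cast_mul] at h1
  refine mul_left_cancel₀ (Nat.cast_ne_zero.2 t.factorial_ne_zero : (t.factorial : ℤ) ≠ 0) ?_
  push_cast at h1
  linarith

/-- A coordinate times a weight. -/
theorem mul_weightBinom (w : Fin n → ℤ) (t : Fin n → ℕ) (j : Fin n) :
    w j * weightBinom w t = ((t j : ℤ) + 1) * weightBinom w (t + Pi.single j 1) +
      (t j : ℤ) * weightBinom w t := by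
  classical
  simp only [weightBinom, Pi.add_apply]
  rw [← mul_prod_erase univ _ (mem_univ j), ← mul_prod_erase univ _ (mem_univ j),
    prod_congr rfl (g := fun i => Ring.choose (w i) (t i + Pi.single (M := fun _ => ℕ) j 1 i))
      fun i hi => by simp [Pi.single_eq_of_ne (ne_of_mem_erase hi)]]
  simp only [Pi.single_eq_same]
  linear_combination (-(∏ i ∈ univ.erase j,
    Ring.choose (w i) (t i + Pi.single (M := fun _ => ℕ) j 1 i))) * succ_mul_choose (w j) (t j)

/-- **Vanishing against the weights is vanishing against products of linear forms.** -/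
theorem sum_weightBinom_prod_eq_zero {X R : Type*} [CommRing R] {s : Finset X} {c : X → R}
    {w : X → Fin n → ℤ} {T : ℕ}
    (h : ∀ t : Fin n → ℕ, ∑ i, t i < T → ∑ x ∈ s, c x * (weightBinom (w x) t : R) = 0)
    {β : Type*} (g : β → Fin n) (e : β → R) (F : Finset β) :
    ∀ t : Fin n → ℕ, ∑ i, t i + F.card < T →
      ∑ x ∈ s, c x * (weightBinom (w x) t : R) * ∏ f ∈ F, ((w x (g f) : R) + e f) = 0 := by
  classical
  induction F using Finset.induction_on with
  | empty =>
    intro t ht
    simpa using h t (by simpa using ht)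
  | insert f F hf ih =>
    intro t ht
    rw [card_insert_of_notMem hf] at ht
    have key : ∀ x, c x * (weightBinom (w x) t : R) * ∏ a ∈ insert f F, ((w x (g a) : R) + e a) =
        ((t (g f) : R) + 1) * (c x * (weightBinom (w x) (t + Pi.single (g f) 1) : R) *
          ∏ a ∈ F, ((w x (g a) : R) + e a)) +
        ((t (g f) : R) + e f) * (c x * (weightBinom (w x) t : R) *
          ∏ a ∈ F, ((w x (g a) : R) + e a)) := fun x => by
      have h1 := congrArg (fun z : ℤ => (z : R)) (mul_weightBinom (w x) t (g f))
      push_cast at h1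
      rw [prod_insert hf]
      linear_combination c x * (∏ a ∈ F, ((w x (g a) : R) + e a)) * h1
    have hsum : ∑ i, (t + Pi.single (g f) 1 : Fin n → ℕ) i = ∑ i, t i + 1 := by
      simp [Pi.add_apply, sum_add_distrib]
    rw [sum_congr rfl fun x _ => key x, sum_add_distrib, ← mul_sum, ← mul_sum,
      ih _ (by rw [hsum]; omega), ih t (by omega), mul_zero, mul_zero, add_zero]

theorem natAbs_choose_le (w : ℤ) (t : ℕ) :
    (Ring.choose w t).natAbs ≤ (w.natAbs + t).choose t := by
  obtain ⟨r, rfl | rfl⟩ := Int.eq_nat_or_neg w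
  · rw [Ring.choose_natCast, Int.natAbs_natCast]
    exact Nat.choose_le_choose t (by simp)
  · rw [Ring.choose_neg, Int.negOnePow_def, Int.natAbs_neg, Int.natAbs_natCast]
    rcases Nat.eq_zero_or_pos (r + t) with h0 | h0
    · obtain ⟨rfl, rfl⟩ : r = 0 ∧ t = 0 := by omega
      simp
    · rw [show (r : ℤ) + t - 1 = ((r + t - 1 : ℕ) : ℤ) by omega, Ring.choose_natCast]
      simp only [Units.smul_def, smul_eq_mul, Int.natAbs_mul, Int.natAbs_natCast,
        Units.val_pow_eq_pow_val, Int.natAbs_pow, Units.val_neg, Units.val_one, zpow_natCast,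
        Int.natAbs_neg, Int.natAbs_one, one_pow, one_mul]
      exact Nat.choose_le_choose t (Nat.sub_le _ _)

theorem pow_le_factorial_mul (T t : ℕ) : T ^ t ≤ t.factorial * 2 ^ (T + t) := by
  refine le_trans ?_ (Nat.mul_le_mul_left _ (Nat.choose_le_two_pow (T + t) t))
  rw [← Nat.descFactorial_eq_factorial_mul_choose]
  refine le_trans (Nat.pow_le_pow_left ?_ t) (Nat.pow_sub_le_descFactorial (T + t) t)
  omega

/-- **The size of a binomial coefficient** of a number at most `2 ^ k T`. -/
theorem natAbs_choose_le_two_pow {w : ℤ} {t T k : ℕ} (ht : t ≤ T) (hw : w.natAbs + t ≤ 2 ^ k * T) :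
    (Ring.choose w t).natAbs ≤ 2 ^ ((k + 2) * T) := by
  refine (natAbs_choose_le w t).trans ?_
  refine Nat.le_of_mul_le_mul_left ?_ t.factorial_pos
  rw [← Nat.descFactorial_eq_factorial_mul_choose]
  calc (w.natAbs + t).descFactorial t ≤ (2 ^ k * T) ^ t :=
        (Nat.descFactorial_le_pow _ _).trans (Nat.pow_le_pow_left hw t)
    _ ≤ 2 ^ (k * T) * (t.factorial * 2 ^ (T + t)) := by
        rw [mul_pow, ← pow_mul]
        exact Nat.mul_le_mul (Nat.pow_le_pow_right two_pos (Nat.mul_le_mul_left k ht))
          (pow_le_factorial_mul T t)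
    _ ≤ t.factorial * 2 ^ ((k + 2) * T) := by
        rw [mul_left_comm, ← pow_add]
        exact Nat.mul_le_mul_left _ (Nat.pow_le_pow_right two_pos (by rw [add_mul]; omega))

theorem natAbs_weightBinom_le {w : Fin n → ℤ} {t : Fin n → ℕ} {T k : ℕ} (ht : ∀ i, t i ≤ T)
    (hw : ∀ i, (w i).natAbs + T ≤ 2 ^ k * T) :
    (weightBinom w t).natAbs ≤ 2 ^ (n * ((k + 2) * T)) := by
  rw [weightBinom, show (∏ i, Ring.choose (w i) (t i)).natAbs =
      ∏ i, (Ring.choose (w i) (t i)).natAbs from map_prod Int.natAbsHom _ _, mul_comm n, pow_mul]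
  refine (prod_le_pow_card _ _ _ fun i _ => natAbs_choose_le_two_pow (ht i)
    (le_trans (Nat.add_le_add_left (ht i) _) (hw i))).trans_eq ?_
  rw [card_univ, Fintype.card_fin]

end FA.BakerLastHeight

end
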